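/-
DELTA / NODE-ABS (helper8), smooth points, part 1: **a local Krull ring with ONE vertical valuation
ring** (`DlSmooth`): a closed point of the special fibre through which exactly one component
passes, and at which this component is smooth: `𝔪_A = (ϖ, t)`.

(helper3's (CONS), helper2's msg 1285.)  `𝒮 : DlSmooth L F`, `A = 𝒮.P.B`, `W` the vertical
valuation ring, `𝒮.hor` the horizontal ones.  This file: orders, KRULL, units, congruences modulo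
`𝔪_W`, the centres.  Same conventions as `Node/Basic.lean`, prefix `dlns_`.
-/
import Fermat.Agent.Lib.Delta.Node.Basic

set_option autoImplicit false
set_option linter.style.haveILetI false
set_option linter.unusedSectionVars false
set_option linter.unusedVariables false

namespace Fermat.Agent.Delta

open Fermat.Agent.T4

/-- **a smooth point of the special fibre**: a local Krull ring over `O` with exactly one vertical
valuation ring `W`, and `𝔪_A = (ϖ, t)` -/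
structure DlSmooth (L F : Type*) [Field L] [Field F] [Algebra L F] where
  /-- the base discrete valuation ring -/
  O : ValuationSubring L
  dvrO : IsDiscreteValuationRing O
  /-- the uniformiser of the base -/
  ϖ : L
  hϖ : DlUnif O ϖ
  /-- the Krull presentation of the local ring `A = P.B` -/
  P : T4Pres F
  isLocal : IsLocalRing P.B
  noeth : IsNoetherianRing P.B
  /-- the vertical valuation ring -/
  W : ValuationSubring F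
  hW : W ∈ P.vals
  ϖW : DlUnif W (algebraMap L F ϖ)
  /-- `O ⊆ A` -/
  O_le : ∀ a ∈ O, algebraMap L F a ∈ P.B
  /-- the other valuation rings are horizontal -/
  hor_ϖ : ∀ V ∈ P.vals, V ≠ W → V.valuation (algebraMap L F ϖ) = 1
  /-- the residue field of `A` is the residue field of `O` -/
  resk : ∀ f : P.B, ∃ a : L, ∃ ha : a ∈ O, ¬ IsUnit (f - ⟨algebraMap L F a, O_le a ha⟩)
  /-- (FIN): the closed points through the point are finite over `O` -/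
  fin : ∀ V ∈ P.vals, V ≠ W → ∃ S : Finset F, (∀ s ∈ S, s ∈ P.B) ∧
    ∀ f ∈ P.B, ∃ c : F → L, (∀ s, c s ∈ O) ∧
      V.valuation (f - ∑ s ∈ S, algebraMap L F (c s) * s) < 1
  /-- the coordinate on the special fibre at the point -/
  t : F
  ht : t ∈ P.B
  Wt : W.valuation t = 1
  t_nu : ¬ IsUnit (⟨t, ht⟩ : P.B)
  /-- `𝔪_A = (t, ϖ)` -/
  max : ∀ f : P.B, ¬ IsUnit f → ∃ a c : P.B,
    (f : F) = (a : F) * t + (c : F) * algebraMap L F ϖ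

variable {L F : Type*} [Field L] [Field F] [Algebra L F]

namespace DlSmooth

variable (𝒮 : DlSmooth L F)

/-- the local ring -/
abbrev A : Subring F := 𝒮.P.B

/-- the horizontal valuation rings through the point -/
def hor : Set (ValuationSubring F) := {V ∈ 𝒮.P.vals | V ≠ 𝒮.W}

/-- `ϖ` as an element of `F` -/
abbrev pi : F := algebraMap L F 𝒮.ϖ

/-- the centre of a valuation ring of the presentation on `A` -/
def ctr (V : ValuationSubring F) (hV : V ∈ 𝒮.P.vals) : Ideal 𝒮.P.B where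
  carrier := {f | V.valuation (f : F) < 1}
  add_mem' := by
    intro f g hf hg
    exact lt_of_le_of_lt (V.valuation.map_add _ _) (max_lt hf hg)
  zero_mem' := by
    show V.valuation ((0 : 𝒮.P.B) : F) < 1
    rw [Subring.coe_zero, map_zero]; exact zero_lt_one
  smul_mem' := by
    intro c f hf
    show V.valuation ((c * f : 𝒮.P.B) : F) < 1
    rw [Subring.coe_mul, map_mul]
    have hc : V.valuation (c : F) ≤ 1 := (V.valuation_le_one_iff _).mpr (𝒮.P.B_le hV c.2)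
    calc V.valuation (c : F) * V.valuation (f : F) ≤ 1 * V.valuation (f : F) :=
          mul_le_mul_left hc _
      _ = V.valuation (f : F) := one_mul _
      _ < 1 := hf

theorem mem_ctr {V : ValuationSubring F} {hV : V ∈ 𝒮.P.vals} {f : 𝒮.P.B} :
    f ∈ 𝒮.ctr V hV ↔ V.valuation (f : F) < 1 := Iff.rfl

theorem pi_mem : 𝒮.pi ∈ 𝒮.P.B := 𝒮.O_le 𝒮.ϖ ((𝒮.O.valuation_le_one_iff _).mp 𝒮.hϖ.1.le)

/-- `ϖ` as an element of `A` -/
def piA : 𝒮.P.B := ⟨𝒮.pi, 𝒮.pi_mem⟩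

instance : IsLocalRing 𝒮.P.B := 𝒮.isLocal

instance : IsNoetherianRing 𝒮.P.B := 𝒮.noeth

instance : IsDiscreteValuationRing 𝒮.O := 𝒮.dvrO

instance instDvrW : IsDiscreteValuationRing 𝒮.W := 𝒮.P.dvr _ 𝒮.hW

/-- the order at `W` -/
noncomputable def oW (f : F) : ℤ := dlOrd 𝒮.W f

/-- the order at a horizontal valuation ring -/
noncomputable def oH (V : ValuationSubring F) (hV : V ∈ 𝒮.hor) (f : F) : ℤ :=
  haveI := 𝒮.P.dvr V hV.1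
  dlOrd V f

theorem vals_cases {V : ValuationSubring F} (hV : V ∈ 𝒮.P.vals) : V = 𝒮.W ∨ V ∈ 𝒮.hor := by
  by_cases h1 : V = 𝒮.W
  · exact Or.inl h1
  · exact Or.inr ⟨hV, h1⟩

end DlSmooth

section Local

variable (𝒮 : DlSmooth L F)

theorem dlns_pi_ne_zero : 𝒮.pi ≠ 0 := by
  have h := dln_ord_of_unif 𝒮.W 𝒮.ϖW
  exact dln_ne_zero_of_ord_ne 𝒮.W (by rw [h]; norm_num)

theorem dlns_oW_pi : 𝒮.oW 𝒮.pi = 1 := dln_ord_of_unif 𝒮.W 𝒮.ϖW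

theorem dlns_oH_pi {V : ValuationSubring F} (hV : V ∈ 𝒮.hor) : 𝒮.oH V hV 𝒮.pi = 0 := by
  haveI := 𝒮.P.dvr V hV.1
  exact (dl_valuation_eq_one_iff V (dlns_pi_ne_zero 𝒮)).mp (𝒮.hor_ϖ V hV.1 hV.2)

/-- **KRULL**, in terms of orders -/
theorem dlns_mem_A_of {f : F} (h1 : 0 ≤ 𝒮.oW f)
    (h3 : ∀ (V : ValuationSubring F) (hV : V ∈ 𝒮.hor), 0 ≤ 𝒮.oH V hV f) : f ∈ 𝒮.A := by
  rw [DlSmooth.A, 𝒮.P.mem_iff]
  intro V hV
  rcases 𝒮.vals_cases hV with rfl | hV'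
  · exact dl_mem_of_ord_nonneg 𝒮.W h1
  · haveI := 𝒮.P.dvr V hV'.1
    exact dl_mem_of_ord_nonneg V (h3 V hV')

theorem dlns_oW_nonneg {f : F} (hf : f ∈ 𝒮.A) : 0 ≤ 𝒮.oW f :=
  dlOrd_nonneg_of_mem 𝒮.W (𝒮.P.B_le 𝒮.hW hf)

theorem dlns_oH_nonneg {f : F} (hf : f ∈ 𝒮.A) {V : ValuationSubring F} (hV : V ∈ 𝒮.hor) :
    0 ≤ 𝒮.oH V hV f := by
  haveI := 𝒮.P.dvr V hV.1
  exact dlOrd_nonneg_of_mem V (𝒮.P.B_le hV.1 hf)

/-- the units of `A` as elements of `F` -/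
def DlSmooth.IsU (f : F) : Prop := f ∈ 𝒮.A ∧ f⁻¹ ∈ 𝒮.A ∧ f ≠ 0

theorem dlns_isU_iff_isUnit (f : 𝒮.P.B) : 𝒮.IsU (f : F) ↔ IsUnit f := by
  constructor
  · rintro ⟨-, hinv, hf0⟩
    refine isUnit_iff_exists_inv.mpr ⟨⟨_, hinv⟩, ?_⟩
    apply Subtype.ext
    show (f : F) * (f : F)⁻¹ = 1
    exact mul_inv_cancel₀ hf0
  · intro hu
    obtain ⟨g, hg⟩ := isUnit_iff_exists_inv.mp hu
    have h1 : (f : F) * (g : F) = 1 := by
      have := congrArg Subtype.val hg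
      simpa using this
    have hf0 : (f : F) ≠ 0 := left_ne_zero_of_mul_eq_one h1
    refine ⟨f.2, ?_, hf0⟩
    have : (f : F)⁻¹ = (g : F) := by
      field_simp
      exact h1.symm
    rw [this]
    exact g.2

theorem dlns_isU_one : 𝒮.IsU 1 := ⟨𝒮.A.one_mem, by rw [inv_one]; exact 𝒮.A.one_mem, one_ne_zero⟩

theorem DlSmooth.IsU.mul {f g : F} (hf : 𝒮.IsU f) (hg : 𝒮.IsU g) : 𝒮.IsU (f * g) :=
  ⟨𝒮.A.mul_mem hf.1 hg.1, by rw [mul_inv]; exact 𝒮.A.mul_mem hf.2.1 hg.2.1,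
    mul_ne_zero hf.2.2 hg.2.2⟩

theorem DlSmooth.IsU.inv {f : F} (hf : 𝒮.IsU f) : 𝒮.IsU f⁻¹ :=
  ⟨hf.2.1, by rw [inv_inv]; exact hf.1, inv_ne_zero hf.2.2⟩

theorem DlSmooth.IsU.pow {f : F} (hf : 𝒮.IsU f) (n : ℕ) : 𝒮.IsU (f ^ n) :=
  ⟨𝒮.A.pow_mem hf.1 n, by rw [← inv_pow]; exact 𝒮.A.pow_mem hf.2.1 n, pow_ne_zero n hf.2.2⟩

theorem DlSmooth.IsU.zpow {f : F} (hf : 𝒮.IsU f) (n : ℤ) : 𝒮.IsU (f ^ n) := by
  rcases n with n | n
  · simpa using hf.pow 𝒮 n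
  · rw [zpow_negSucc]
    exact (hf.pow 𝒮 (n + 1)).inv 𝒮

theorem DlSmooth.IsU.div {f g : F} (hf : 𝒮.IsU f) (hg : 𝒮.IsU g) : 𝒮.IsU (f / g) := by
  rw [div_eq_mul_inv]
  exact hf.mul 𝒮 (hg.inv 𝒮)

/-- the orders of a unit vanish -/
theorem DlSmooth.IsU.oW {f : F} (hf : 𝒮.IsU f) : 𝒮.oW f = 0 := by
  have h1 := dlns_oW_nonneg 𝒮 hf.1
  have h2 := dlns_oW_nonneg 𝒮 hf.2.1
  have h3 : 𝒮.oW f⁻¹ = -𝒮.oW f := dlOrd_inv 𝒮.W f
  omega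

theorem DlSmooth.IsU.oH {f : F} (hf : 𝒮.IsU f) {V : ValuationSubring F} (hV : V ∈ 𝒮.hor) :
    𝒮.oH V hV f = 0 := by
  haveI := 𝒮.P.dvr V hV.1
  have h1 := dlns_oH_nonneg 𝒮 hf.1 hV
  have h2 := dlns_oH_nonneg 𝒮 hf.2.1 hV
  have h3 : 𝒮.oH V hV f⁻¹ = -𝒮.oH V hV f := dlOrd_inv V f
  omega

/-- **the unit lemma at a smooth point** (KRULL): no horizontal part, order `0` at `W` ⇒ unit -/
theorem dlns_isU_of {f : F} (hf0 : f ≠ 0) (h1 : 𝒮.oW f = 0)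
    (h3 : ∀ (V : ValuationSubring F) (hV : V ∈ 𝒮.hor), 𝒮.oH V hV f = 0) : 𝒮.IsU f := by
  refine ⟨dlns_mem_A_of 𝒮 (by omega) (fun V hV => by rw [h3 V hV]), ?_, hf0⟩
  refine dlns_mem_A_of 𝒮 ?_ ?_
  · show 0 ≤ dlOrd 𝒮.W f⁻¹
    rw [dlOrd_inv]; have : dlOrd 𝒮.W f = 0 := h1; omega
  · intro V hV
    haveI := 𝒮.P.dvr V hV.1
    show 0 ≤ dlOrd V f⁻¹
    rw [dlOrd_inv]; have : dlOrd V f = 0 := h3 V hV; omega

/-! ### the arithmetic of the orders -/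

theorem dlns_oW_mul {f g : F} (hf : f ≠ 0) (hg : g ≠ 0) : 𝒮.oW (f * g) = 𝒮.oW f + 𝒮.oW g :=
  dlOrd_mul 𝒮.W hf hg

theorem dlns_oH_mul {V : ValuationSubring F} (hV : V ∈ 𝒮.hor) {f g : F} (hf : f ≠ 0)
    (hg : g ≠ 0) : 𝒮.oH V hV (f * g) = 𝒮.oH V hV f + 𝒮.oH V hV g := by
  haveI := 𝒮.P.dvr V hV.1
  exact dlOrd_mul V hf hg

theorem dlns_oW_inv (f : F) : 𝒮.oW f⁻¹ = -𝒮.oW f := dlOrd_inv 𝒮.W f

theorem dlns_oH_inv {V : ValuationSubring F} (hV : V ∈ 𝒮.hor) (f : F) :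
    𝒮.oH V hV f⁻¹ = -𝒮.oH V hV f := by
  haveI := 𝒮.P.dvr V hV.1
  exact dlOrd_inv V f

theorem dlns_oW_div {f g : F} (hf : f ≠ 0) (hg : g ≠ 0) : 𝒮.oW (f / g) = 𝒮.oW f - 𝒮.oW g :=
  dlOrd_div 𝒮.W hf hg

theorem dlns_oH_div {V : ValuationSubring F} (hV : V ∈ 𝒮.hor) {f g : F} (hf : f ≠ 0)
    (hg : g ≠ 0) : 𝒮.oH V hV (f / g) = 𝒮.oH V hV f - 𝒮.oH V hV g := by
  haveI := 𝒮.P.dvr V hV.1
  exact dlOrd_div V hf hg

theorem dlns_oW_zpow (f : F) (n : ℤ) : 𝒮.oW (f ^ n) = n * 𝒮.oW f := dlOrd_zpow 𝒮.W f n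

theorem dlns_oH_zpow {V : ValuationSubring F} (hV : V ∈ 𝒮.hor) (f : F) (n : ℤ) :
    𝒮.oH V hV (f ^ n) = n * 𝒮.oH V hV f := by
  haveI := 𝒮.P.dvr V hV.1
  exact dlOrd_zpow V f n

theorem dlns_oW_pow (f : F) (n : ℕ) : 𝒮.oW (f ^ n) = n * 𝒮.oW f := dlOrd_pow 𝒮.W f n

theorem dlns_oH_pow {V : ValuationSubring F} (hV : V ∈ 𝒮.hor) (f : F) (n : ℕ) :
    𝒮.oH V hV (f ^ n) = n * 𝒮.oH V hV f := by
  haveI := 𝒮.P.dvr V hV.1
  exact dlOrd_pow V f n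

/-! ### constants -/

/-- units of `O` are units of `A` -/
theorem dlns_isU_of_unit_O {u : L} (hu : 𝒮.O.valuation u = 1) : 𝒮.IsU (algebraMap L F u) := by
  have hu0 : u ≠ 0 := by
    rintro rfl
    rw [map_zero] at hu
    exact zero_ne_one hu
  have h1 : u ∈ 𝒮.O := (𝒮.O.valuation_le_one_iff u).mp hu.le
  have h2 : u⁻¹ ∈ 𝒮.O := by
    rw [← 𝒮.O.valuation_le_one_iff, map_inv₀, hu, inv_one]
  refine ⟨𝒮.O_le u h1, ?_, (map_ne_zero _).mpr hu0⟩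
  rw [← map_inv₀]
  exact 𝒮.O_le _ h2

/-- **constants**: order `0` at the horizontal valuation rings -/
theorem dlns_const {c : L} (hc : c ≠ 0) :
    𝒮.oW (algebraMap L F c) = dlOrd 𝒮.O c ∧
      ∀ (V : ValuationSubring F) (hV : V ∈ 𝒮.hor), 𝒮.oH V hV (algebraMap L F c) = 0 := by
  have hπ : dlOrd 𝒮.O 𝒮.ϖ = 1 := dln_ord_of_unif 𝒮.O 𝒮.hϖ
  obtain ⟨u, hu, hcu⟩ := dl_exists_unit_mul_zpow 𝒮.O hπ hc
  have hU := dlns_isU_of_unit_O 𝒮 hu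
  have e : algebraMap L F c = algebraMap L F u * 𝒮.pi ^ dlOrd 𝒮.O c := by
    conv_lhs => rw [hcu]
    rw [map_mul, map_zpow₀]
  have hp0 : 𝒮.pi ^ dlOrd 𝒮.O c ≠ 0 := zpow_ne_zero _ (dlns_pi_ne_zero 𝒮)
  refine ⟨?_, fun V hV => ?_⟩
  · rw [e, dlns_oW_mul 𝒮 hU.2.2 hp0, hU.oW, dlns_oW_zpow, dlns_oW_pi]; ring
  · rw [e, dlns_oH_mul 𝒮 hV hU.2.2 hp0, hU.oH 𝒮 hV, dlns_oH_zpow, dlns_oH_pi]; ring

/-- **`𝔭_W = ϖ A`** -/
theorem dlns_div_pi {f : F} (hf : f ∈ 𝒮.A) (h : f = 0 ∨ 1 ≤ 𝒮.oW f) : f / 𝒮.pi ∈ 𝒮.A := by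
  rcases h with rfl | h1
  · rw [zero_div]; exact 𝒮.A.zero_mem
  have hf0 : f ≠ 0 := by
    rintro rfl
    have : 𝒮.oW (0 : F) = 0 := dlOrd_zero 𝒮.W
    omega
  have hp := dlns_pi_ne_zero 𝒮
  refine dlns_mem_A_of 𝒮 ?_ ?_
  · rw [dlns_oW_div 𝒮 hf0 hp, dlns_oW_pi]; omega
  · intro V hV
    rw [dlns_oH_div 𝒮 hV hf0 hp, dlns_oH_pi]
    have := dlns_oH_nonneg 𝒮 hf hV
    omega

/-! ### consequences of (ESSENTIAL) -/

/-- a uniformiser of `V` in `A` -/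
theorem dlns_exists_unif (V : ValuationSubring F) [IsDiscreteValuationRing V]
    (hV : V ∈ 𝒮.P.vals) : ∃ h : F, h ∈ 𝒮.A ∧ dlOrd V h = 1 := by
  obtain ⟨a, haV, ha⟩ := dl_exists_ord_eq_one V
  have ha0 : a ≠ 0 := dln_ne_zero_of_ord_ne V (by omega)
  obtain ⟨c, hcB, hc1, hca⟩ := 𝒮.P.essential V hV a haV
  have hc0 : c ≠ 0 := by
    rintro rfl
    rw [map_zero] at hc1
    exact zero_ne_one hc1
  refine ⟨c * a, hca, ?_⟩
  rw [dlOrd_mul V hc0 ha0, (dl_valuation_eq_one_iff V hc0).mp hc1, ha]; ring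

/-- a unit of `V` is a quotient of two elements of `A` which are units of `V` -/
theorem dlns_exists_frac (V : ValuationSubring F) [IsDiscreteValuationRing V]
    (hV : V ∈ 𝒮.P.vals) {z : F} (hz0 : z ≠ 0) (hz : dlOrd V z = 0) :
    ∃ a b : F, a ∈ 𝒮.A ∧ b ∈ 𝒮.A ∧ a ≠ 0 ∧ b ≠ 0 ∧ dlOrd V a = 0 ∧ dlOrd V b = 0 ∧
      z = a / b := by
  have hzV : z ∈ V := dl_mem_of_ord_nonneg V (by omega)
  obtain ⟨c, hcB, hc1, hcz⟩ := 𝒮.P.essential V hV z hzV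
  have hc0 : c ≠ 0 := by
    rintro rfl
    rw [map_zero] at hc1
    exact zero_ne_one hc1
  have hc : dlOrd V c = 0 := (dl_valuation_eq_one_iff V hc0).mp hc1
  refine ⟨c * z, c, hcz, hcB, mul_ne_zero hc0 hz0, hc0, ?_, hc, by field_simp⟩
  rw [dlOrd_mul V hc0 hz0, hc, hz]; ring

/-! ### the maximal ideal -/

/-- elements of positive order at `W` are not units -/
theorem dlns_not_isU_of_oW_pos {f : F} (h : f = 0 ∨ 0 < 𝒮.oW f) : ¬ 𝒮.IsU f := by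
  intro hu
  rcases h with h | h
  · exact hu.2.2 h
  · have := hu.oW 𝒮
    omega

/-- the non-units of `A` are closed under addition (`A` is local) -/
theorem dlns_nonunit_add {f g : F} (hf : f ∈ 𝒮.A) (hg : g ∈ 𝒮.A) (hfu : ¬ 𝒮.IsU f)
    (hgu : ¬ 𝒮.IsU g) : ¬ 𝒮.IsU (f + g) := by
  intro hu
  have h1 : ¬ IsUnit (⟨f, hf⟩ : 𝒮.P.B) := fun h => hfu ((dlns_isU_iff_isUnit 𝒮 ⟨f, hf⟩).mpr h)
  have h2 : ¬ IsUnit (⟨g, hg⟩ : 𝒮.P.B) := fun h => hgu ((dlns_isU_iff_isUnit 𝒮 ⟨g, hg⟩).mpr h)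
  have h3 : IsUnit ((⟨f, hf⟩ : 𝒮.P.B) + ⟨g, hg⟩) :=
    (dlns_isU_iff_isUnit 𝒮 (⟨f, hf⟩ + ⟨g, hg⟩)).mp hu
  rcases IsLocalRing.isUnit_or_isUnit_of_isUnit_add h3 with h | h
  · exact h1 h
  · exact h2 h

/-- a unit plus a non-unit is a unit -/
theorem dlns_isU_add_nonunit {f g : F} (hf : 𝒮.IsU f) (hg : g ∈ 𝒮.A) (hgu : ¬ 𝒮.IsU g) :
    𝒮.IsU (f + g) := by
  by_contra hfg
  have h1 : ¬ 𝒮.IsU (-g) := by
    intro h
    apply hgu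
    have := h.mul 𝒮 (show 𝒮.IsU (-1) from
      ⟨𝒮.A.neg_mem 𝒮.A.one_mem, by rw [inv_neg, inv_one]; exact 𝒮.A.neg_mem 𝒮.A.one_mem,
        by norm_num⟩)
    simpa using this
  have h2 := dlns_nonunit_add 𝒮 (𝒮.A.add_mem hf.1 hg) (𝒮.A.neg_mem hg) hfg h1
  apply h2
  rwa [add_neg_cancel_right]

theorem DlSmooth.t_ne_zero : 𝒮.t ≠ 0 := by
  intro h
  have := 𝒮.Wt
  rw [h, map_zero] at this
  exact zero_ne_one this

theorem DlSmooth.oW_t : 𝒮.oW 𝒮.t = 0 := (dl_valuation_eq_one_iff 𝒮.W 𝒮.t_ne_zero).mp 𝒮.Wt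

theorem DlSmooth.t_not_isU : ¬ 𝒮.IsU 𝒮.t := fun h =>
  𝒮.t_nu ((dlns_isU_iff_isUnit 𝒮 ⟨𝒮.t, 𝒮.ht⟩).mp h)

/-- `𝔪_A = (t, ϖ)`, elementary form -/
theorem DlSmooth.max' : ∀ f ∈ 𝒮.A, ¬ 𝒮.IsU f → ∃ a c : F, a ∈ 𝒮.A ∧ c ∈ 𝒮.A ∧
    f = a * 𝒮.t + c * 𝒮.pi := by
  intro f hf hfu
  have h1 : ¬ IsUnit (⟨f, hf⟩ : 𝒮.P.B) := fun h =>
    hfu ((dlns_isU_iff_isUnit 𝒮 ⟨f, hf⟩).mpr h)
  obtain ⟨a, c, e⟩ := 𝒮.max ⟨f, hf⟩ h1
  exact ⟨a, c, a.2, c.2, e⟩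

/-! ### congruences modulo `𝔪_W` -/

/-- `f ≡ g` modulo the maximal ideal of `W` -/
def DlSmooth.CongW (f g : F) : Prop := f = g ∨ 0 < 𝒮.oW (f - g)

theorem DlSmooth.CongW.refl (f : F) : 𝒮.CongW f f := Or.inl rfl

theorem DlSmooth.CongW.symm {f g : F} (h : 𝒮.CongW f g) : 𝒮.CongW g f := by
  rcases h with h | h
  · exact Or.inl h.symm
  · right
    have : g - f = -(f - g) := by ring
    rw [this]
    show 0 < dlOrd 𝒮.W (-(f - g))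
    rw [dlOrd_neg]
    exact h

theorem DlSmooth.CongW.trans {f g h : F} (h1 : 𝒮.CongW f g) (h2 : 𝒮.CongW g h) :
    𝒮.CongW f h := by
  rcases h1 with rfl | h1
  · exact h2
  rcases h2 with rfl | h2
  · exact Or.inr h1
  by_cases hfh : f = h
  · exact Or.inl hfh
  right
  have e : f - h = (f - g) + (g - h) := by ring
  have hne : (f - g) + (g - h) ≠ 0 := by rw [← e]; exact sub_ne_zero.mpr hfh
  rw [e]
  exact dlOrd_add_ge 𝒮.W hne (n := 1) (Or.inr h1) (Or.inr h2)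

/-- multiplication by an element of `W` -/
theorem DlSmooth.CongW.mul_left {f g : F} (h : 𝒮.CongW f g) {a : F}
    (ha : a = 0 ∨ 0 ≤ 𝒮.oW a) : 𝒮.CongW (a * f) (a * g) := by
  rcases h with rfl | h
  · exact Or.inl rfl
  rcases ha with rfl | ha
  · left; simp
  by_cases ha0 : a = 0
  · left; simp [ha0]
  right
  have hfg : f - g ≠ 0 := dln_ne_zero_of_ord_ne 𝒮.W (by
    have : 0 < dlOrd 𝒮.W (f - g) := h
    omega)
  rw [← mul_sub, dlns_oW_mul 𝒮 ha0 hfg]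
  omega

theorem DlSmooth.CongW.mul {f g f' g' : F} (h : 𝒮.CongW f g) (h' : 𝒮.CongW f' g')
    (hf' : f' = 0 ∨ 0 ≤ 𝒮.oW f') (hg : g = 0 ∨ 0 ≤ 𝒮.oW g) : 𝒮.CongW (f * f') (g * g') := by
  have h1 : 𝒮.CongW (f * f') (g * f') := by
    rw [mul_comm f, mul_comm g]
    exact h.mul_left 𝒮 hf'
  exact h1.trans 𝒮 (h'.mul_left 𝒮 hg)

theorem DlSmooth.CongW.pow {f g : F} (h : 𝒮.CongW f g) (hf : f = 0 ∨ 0 ≤ 𝒮.oW f)
    (hg : g = 0 ∨ 0 ≤ 𝒮.oW g) (n : ℕ) : 𝒮.CongW (f ^ n) (g ^ n) := by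
  induction n with
  | zero => simp only [pow_zero]; exact DlSmooth.CongW.refl 𝒮 1
  | succ n ih =>
    rw [pow_succ, pow_succ]
    refine ih.mul 𝒮 h hf ?_
    rcases hg with rfl | hg
    · rcases n with _ | n
      · right; simp only [pow_zero]; show 0 ≤ dlOrd 𝒮.W 1; rw [dlOrd_one]
      · left; simp
    · right; rw [dlns_oW_pow]; positivity

/-- an element congruent to an element of order `0` is nonzero of order `0` -/
theorem DlSmooth.CongW.oW_eq_zero {f g : F} (h : 𝒮.CongW f g) (hg0 : g ≠ 0)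
    (hg : 𝒮.oW g = 0) : f ≠ 0 ∧ 𝒮.oW f = 0 :=
  dln_ord_eq_zero_of_sub 𝒮.W hg0 hg h

/-- inversion of congruences between units of `W` -/
theorem DlSmooth.CongW.inv {f g : F} (h : 𝒮.CongW f g) (hg0 : g ≠ 0) (hg : 𝒮.oW g = 0) :
    𝒮.CongW f⁻¹ g⁻¹ := by
  obtain ⟨hf0, hf⟩ := h.oW_eq_zero 𝒮 hg0 hg
  rcases h with h | h
  · exact Or.inl (by rw [h])
  right
  have hfg : f - g ≠ 0 := dln_ne_zero_of_ord_ne 𝒮.W (by
    have : 0 < dlOrd 𝒮.W (f - g) := h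
    omega)
  have e : f⁻¹ - g⁻¹ = -(f - g) / (f * g) := by
    field_simp
    ring
  rw [e, dlns_oW_div 𝒮 (neg_ne_zero.mpr hfg) (mul_ne_zero hf0 hg0), dlns_oW_mul 𝒮 hf0 hg0, hf, hg]
  show 0 < dlOrd 𝒮.W (-(f - g)) - (0 + 0)
  rw [dlOrd_neg]
  have : 0 < dlOrd 𝒮.W (f - g) := h
  omega

/-- integer powers of congruences between units of `W` -/
theorem DlSmooth.CongW.zpow {f g : F} (h : 𝒮.CongW f g) (hg0 : g ≠ 0)
    (hg : 𝒮.oW g = 0) (n : ℤ) : 𝒮.CongW (f ^ n) (g ^ n) := by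
  obtain ⟨hf0, hf⟩ := h.oW_eq_zero 𝒮 hg0 hg
  rcases n with n | n
  · simp only [Int.ofNat_eq_natCast, zpow_natCast]
    exact h.pow 𝒮 (Or.inr (by rw [hf])) (Or.inr (by rw [hg])) n
  · rw [zpow_negSucc, zpow_negSucc]
    refine DlSmooth.CongW.inv 𝒮 (h.pow 𝒮 (Or.inr (by rw [hf])) (Or.inr (by rw [hg])) (n + 1))
      (pow_ne_zero _ hg0) ?_
    rw [dlns_oW_pow, hg]; ring

end Local

end Fermat.Agent.Delta
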