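/-
DELTA / NODE-ABS (helper8), smooth points, part 2: **the slope at a smooth point**.

`𝒮 : DlSmooth L F`.  `A ⧸ 𝔭_W` is a discrete valuation ring with uniformiser the image of `t`;
for `z ≠ 0`, `z / ϖ ^ (ord_W z) ≡ t ^ μ · u` modulo `𝔪_W` for a unique `μ : ℤ` (`u ∈ A^×`):
`𝒮.slope z := μ` (= the order at the point of the reduction of `z / ϖ ^ n` to the component).

* `dlns_ctr_isPrime`, `dlns_quot_dvr`, `dlns_dvrW`;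
* `DlSmooth.slope`, `slope_spec`, `slope_eq`, `slope_mul/inv/div/pow/zpow/t/pi/isU/const`;
* `DlSmooth.slope_eq_of_unif` : the slope may be computed with ANY uniformiser of the branch;
* `dlns_slope_form` : no horizontal part ⇒ `z = ϖ ^ n · unit` and `slope z = 0`.
-/
import Fermat.Agent.Lib.Delta.Node.Smooth.Basic
import Mathlib.RingTheory.DiscreteValuationRing.TFAE
import Mathlib.RingTheory.LocalRing.Quotient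

set_option autoImplicit false
set_option linter.style.haveILetI false
set_option linter.unusedSectionVars false
set_option linter.unusedVariables false

namespace Fermat.Agent.Delta

open Fermat.Agent.T4

variable {L F : Type*} [Field L] [Field F] [Algebra L F]

section Quot

variable (𝒮 : DlSmooth L F)

/-- the centres are prime ideals -/
theorem dlns_ctr_isPrime (V : ValuationSubring F) (hV : V ∈ 𝒮.P.vals) :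
    (𝒮.ctr V hV).IsPrime := by
  rw [Ideal.isPrime_iff]
  constructor
  · rw [Ideal.ne_top_iff_one]
    intro h
    have h1 : V.valuation ((1 : 𝒮.P.B) : F) < 1 := h
    rw [Subring.coe_one, map_one] at h1
    exact lt_irrefl _ h1
  · intro x y hxy
    have h1 : V.valuation ((x * y : 𝒮.P.B) : F) < 1 := hxy
    rw [Subring.coe_mul, map_mul] at h1
    have hx : V.valuation (x : F) ≤ 1 := (V.valuation_le_one_iff _).mpr (𝒮.P.B_le hV x.2)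
    have hy : V.valuation (y : F) ≤ 1 := (V.valuation_le_one_iff _).mpr (𝒮.P.B_le hV y.2)
    by_contra hcon
    push Not at hcon
    have hx1 : V.valuation (x : F) = 1 :=
      le_antisymm hx (not_lt.mp (fun h => hcon.1 h))
    have hy1 : V.valuation (y : F) = 1 :=
      le_antisymm hy (not_lt.mp (fun h => hcon.2 h))
    rw [hx1, hy1, one_mul] at h1
    exact lt_irrefl _ h1

instance dlns_ctr_isPrime_inst (V : ValuationSubring F) (hV : V ∈ 𝒮.P.vals) :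
    (𝒮.ctr V hV).IsPrime := dlns_ctr_isPrime 𝒮 V hV

instance dlns_quot_isLocalRing (V : ValuationSubring F) (hV : V ∈ 𝒮.P.vals) :
    IsLocalRing (𝒮.P.B ⧸ 𝒮.ctr V hV) :=
  IsLocalRing.of_surjective' (Ideal.Quotient.mk _) Ideal.Quotient.mk_surjective

instance dlns_quot_isLocalHom (V : ValuationSubring F) (hV : V ∈ 𝒮.P.vals) :
    IsLocalHom (Ideal.Quotient.mk (𝒮.ctr V hV)) :=
  IsLocalHom.of_surjective _ Ideal.Quotient.mk_surjective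

/-- membership in the centre of `W`, in terms of orders -/
theorem dlns_mem_ctrW {f : 𝒮.P.B} : f ∈ 𝒮.ctr 𝒮.W 𝒮.hW ↔ (f : F) = 0 ∨ 0 < 𝒮.oW f := by
  rw [DlSmooth.mem_ctr]
  constructor
  · intro h
    by_cases h0 : (f : F) = 0
    · exact Or.inl h0
    · exact Or.inr ((dl_valuation_lt_one_iff 𝒮.W h0).mp h)
  · rintro (h | h)
    · rw [h, map_zero]; exact zero_lt_one
    · have h0 : (f : F) ≠ 0 := dln_ne_zero_of_ord_ne 𝒮.W (by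
        have : 0 < dlOrd 𝒮.W (f : F) := h
        omega)
      exact (dl_valuation_lt_one_iff 𝒮.W h0).mpr h

/-- `A ⧸ 𝔭_W` is a discrete valuation ring with uniformiser the image of `t` -/
theorem dlns_quot_dvr :
    IsPrincipalIdealRing (𝒮.P.B ⧸ 𝒮.ctr 𝒮.W 𝒮.hW) ∧
      IsLocalRing.maximalIdeal (𝒮.P.B ⧸ 𝒮.ctr 𝒮.W 𝒮.hW) =
        Ideal.span {Ideal.Quotient.mk (𝒮.ctr 𝒮.W 𝒮.hW) ⟨𝒮.t, 𝒮.ht⟩} := by
  have ht0 : (⟨𝒮.t, 𝒮.ht⟩ : 𝒮.P.B) ∉ 𝒮.ctr 𝒮.W 𝒮.hW := by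
    rw [dlns_mem_ctrW]
    rintro (h | h)
    · exact 𝒮.t_ne_zero h
    · have := 𝒮.oW_t
      change 0 < 𝒮.oW 𝒮.t at h
      omega
  have hmax : IsLocalRing.maximalIdeal (𝒮.P.B ⧸ 𝒮.ctr 𝒮.W 𝒮.hW) =
      Ideal.span {Ideal.Quotient.mk (𝒮.ctr 𝒮.W 𝒮.hW) ⟨𝒮.t, 𝒮.ht⟩} := by
    apply le_antisymm
    · intro x hx
      obtain ⟨f, rfl⟩ := Ideal.Quotient.mk_surjective x
      have hfu : ¬ IsUnit f := by
        intro h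
        exact (IsLocalRing.mem_maximalIdeal _).mp hx (h.map _)
      obtain ⟨a, c, e⟩ := 𝒮.max f hfu
      rw [Ideal.mem_span_singleton]
      refine ⟨Ideal.Quotient.mk _ a, ?_⟩
      have hmem : f - a * ⟨𝒮.t, 𝒮.ht⟩ ∈ 𝒮.ctr 𝒮.W 𝒮.hW := by
        rw [dlns_mem_ctrW]
        have e' : ((f - a * ⟨𝒮.t, 𝒮.ht⟩ : 𝒮.P.B) : F) = (c : F) * 𝒮.pi := by
          show (f : F) - (a : F) * 𝒮.t = _
          rw [e]; ring
        rw [e']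
        by_cases hc : (c : F) = 0
        · left; rw [hc, zero_mul]
        right
        rw [dlns_oW_mul 𝒮 hc (dlns_pi_ne_zero 𝒮), dlns_oW_pi]
        have := dlns_oW_nonneg 𝒮 c.2
        omega
      rw [← Ideal.Quotient.eq_zero_iff_mem, map_sub, map_mul, sub_eq_zero] at hmem
      rw [hmem, mul_comm]
    · rw [Ideal.span_singleton_le_iff_mem, IsLocalRing.mem_maximalIdeal, mem_nonunits_iff]
      intro h
      exact 𝒮.t_nu (isUnit_of_map_unit (Ideal.Quotient.mk (𝒮.ctr 𝒮.W 𝒮.hW)) _ h)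
  refine ⟨?_, hmax⟩
  have hnf : ¬ IsField (𝒮.P.B ⧸ 𝒮.ctr 𝒮.W 𝒮.hW) := by
    rw [IsLocalRing.isField_iff_maximalIdeal_eq, hmax, Ideal.span_singleton_eq_bot,
      Ideal.Quotient.eq_zero_iff_mem]
    exact ht0
  have h4 : (IsLocalRing.maximalIdeal (𝒮.P.B ⧸ 𝒮.ctr 𝒮.W 𝒮.hW)).IsPrincipal := ⟨⟨_, hmax⟩⟩
  have hd : IsDiscreteValuationRing (𝒮.P.B ⧸ 𝒮.ctr 𝒮.W 𝒮.hW) :=
    ((IsDiscreteValuationRing.TFAE _ hnf).out 4 0).mp h4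
  exact hd.toIsPrincipalIdealRing

/-- the elementary form of "`A ⧸ 𝔭_W` is a discrete valuation ring with uniformiser `t̄`" -/
theorem dlns_dvrW : ∀ f ∈ 𝒮.A, f ≠ 0 → 𝒮.oW f = 0 →
    ∃ (n : ℕ) (u : F), 𝒮.IsU u ∧ 𝒮.CongW f (𝒮.t ^ n * u) := by
  intro f hfA hf0 hfW
  obtain ⟨hpir, hmax⟩ := dlns_quot_dvr 𝒮
  have ht0 : (⟨𝒮.t, 𝒮.ht⟩ : 𝒮.P.B) ∉ 𝒮.ctr 𝒮.W 𝒮.hW := by
    rw [dlns_mem_ctrW]
    rintro (h | h)
    · exact 𝒮.t_ne_zero h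
    · have := 𝒮.oW_t
      change 0 < 𝒮.oW 𝒮.t at h
      omega
  have hne : IsLocalRing.maximalIdeal (𝒮.P.B ⧸ 𝒮.ctr 𝒮.W 𝒮.hW) ≠ ⊥ := by
    rw [hmax]
    intro h
    rw [Ideal.span_singleton_eq_bot, Ideal.Quotient.eq_zero_iff_mem] at h
    exact ht0 h
  haveI : IsDiscreteValuationRing (𝒮.P.B ⧸ 𝒮.ctr 𝒮.W 𝒮.hW) := { not_a_field' := hne }
  have hirr : Irreducible (Ideal.Quotient.mk (𝒮.ctr 𝒮.W 𝒮.hW) ⟨𝒮.t, 𝒮.ht⟩) :=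
    (IsDiscreteValuationRing.irreducible_iff_uniformizer _).mpr hmax
  have hf1 : Ideal.Quotient.mk (𝒮.ctr 𝒮.W 𝒮.hW) ⟨f, hfA⟩ ≠ 0 := by
    rw [Ne, Ideal.Quotient.eq_zero_iff_mem, dlns_mem_ctrW]
    rintro (h | h)
    · exact hf0 h
    · change 0 < 𝒮.oW f at h
      omega
  obtain ⟨n, u, hu⟩ := IsDiscreteValuationRing.eq_unit_mul_pow_irreducible hf1 hirr
  obtain ⟨u', hu'⟩ := Ideal.Quotient.mk_surjective (u : 𝒮.P.B ⧸ 𝒮.ctr 𝒮.W 𝒮.hW)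
  have hunit : IsUnit u' := by
    apply isUnit_of_map_unit (Ideal.Quotient.mk (𝒮.ctr 𝒮.W 𝒮.hW))
    rw [hu']
    exact u.isUnit
  refine ⟨n, (u' : F), (dlns_isU_iff_isUnit 𝒮 u').mpr hunit, ?_⟩
  have hmem : (⟨f, hfA⟩ - ⟨𝒮.t, 𝒮.ht⟩ ^ n * u' : 𝒮.P.B) ∈ 𝒮.ctr 𝒮.W 𝒮.hW := by
    rw [← Ideal.Quotient.eq_zero_iff_mem, map_sub, map_mul, map_pow, hu', hu]
    ring
  rw [dlns_mem_ctrW] at hmem
  rcases hmem with h | h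
  · left
    have : f - 𝒮.t ^ n * (u' : F) = 0 := h
    exact sub_eq_zero.mp this
  · right
    exact h

end Quot

namespace DlSmooth

variable (𝒮 : DlSmooth L F)

/-- the slope decomposition at `W` of an arbitrary function of order `0` at `W` -/
theorem exists_slopeW {z : F} (hz0 : z ≠ 0) (hz : 𝒮.oW z = 0) :
    ∃ (m : ℤ) (u : F), 𝒮.IsU u ∧ 𝒮.CongW z (𝒮.t ^ m * u) := by
  obtain ⟨a, b, haA, hbA, ha0, hb0, ha, hb, rfl⟩ := dlns_exists_frac 𝒮 𝒮.W 𝒮.hW hz0 hz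
  replace ha : 𝒮.oW a = 0 := ha
  replace hb : 𝒮.oW b = 0 := hb
  obtain ⟨n, u, hu, hau⟩ := dlns_dvrW 𝒮 a haA ha0 ha
  obtain ⟨n', u', hu', hbu⟩ := dlns_dvrW 𝒮 b hbA hb0 hb
  refine ⟨(n : ℤ) - n', u / u', hu.div 𝒮 hu', ?_⟩
  have ht0 := 𝒮.t_ne_zero
  have hbu0 : 𝒮.t ^ n' * u' ≠ 0 := mul_ne_zero (pow_ne_zero _ ht0) hu'.2.2
  have hbu1 : 𝒮.oW (𝒮.t ^ n' * u') = 0 := by
    rw [dlns_oW_mul 𝒮 (pow_ne_zero _ ht0) hu'.2.2, dlns_oW_pow, 𝒮.oW_t, hu'.oW]; ring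
  have e1 : 𝒮.t ^ ((n : ℤ) - n') * (u / u') = (𝒮.t ^ n * u) / (𝒮.t ^ n' * u') := by
    rw [zpow_sub₀ ht0, zpow_natCast, zpow_natCast]
    have := hu'.2.2
    field_simp
  rw [e1]
  -- `a / b ≡ (t^n u) / (t^n' u')`
  have h1 : 𝒮.CongW b⁻¹ (𝒮.t ^ n' * u')⁻¹ := hbu.inv 𝒮 hbu0 hbu1
  rw [div_eq_mul_inv, div_eq_mul_inv]
  refine hau.mul 𝒮 h1 (Or.inr ?_) (Or.inr ?_)
  · rw [dlns_oW_inv, hb]; norm_num
  · rw [dlns_oW_mul 𝒮 (pow_ne_zero _ ht0) hu.2.2, dlns_oW_pow, 𝒮.oW_t, hu.oW]; norm_num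

/-- a non-unit of `A` times an element of `A` is a non-unit -/
theorem not_isU_mul {a b : F} (ha : a ∈ 𝒮.A) (hb : b ∈ 𝒮.A) (hau : ¬ 𝒮.IsU a) :
    ¬ 𝒮.IsU (a * b) := by
  intro h
  apply hau
  have ha0 : a ≠ 0 := left_ne_zero_of_mul h.2.2
  refine ⟨ha, ?_, ha0⟩
  have : a⁻¹ = b * (a * b)⁻¹ := by
    have hb0 : b ≠ 0 := right_ne_zero_of_mul h.2.2
    field_simp
  rw [this]
  exact 𝒮.A.mul_mem hb h.2.1

/-- `t` is not a unit modulo `𝔪_W`: `t ^ m · u ≡ u'` forces `m = 0` -/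
theorem slopeW_zero {m : ℤ} {u u' : F} (hu : 𝒮.IsU u) (hu' : 𝒮.IsU u')
    (h : 𝒮.CongW (𝒮.t ^ m * u) u') : m = 0 := by
  have ht0 := 𝒮.t_ne_zero
  wlog hm : 0 ≤ m generalizing m u u'
  · push Not at hm
    have h1 : 𝒮.CongW (𝒮.t ^ (-m) * u') u := by
      have h2 := h.symm 𝒮
      have h3 := h2.mul_left 𝒮 (a := 𝒮.t ^ (-m)) (Or.inr (by rw [dlns_oW_zpow, 𝒮.oW_t]; simp))
      have e : 𝒮.t ^ (-m) * (𝒮.t ^ m * u) = u := by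
        rw [← mul_assoc, ← zpow_add₀ ht0]; simp
      rwa [e] at h3
    have := this hu' hu h1 (by omega)
    omega
  by_contra hne
  have hm1 : 1 ≤ m := by omega
  obtain ⟨k, rfl⟩ : ∃ k : ℕ, m = k + 1 := ⟨(m - 1).toNat, by omega⟩
  have e0 : 𝒮.t ^ ((k : ℤ) + 1) * u = 𝒮.t * (𝒮.t ^ k * u) := by
    rw [show ((k : ℤ) + 1) = ((k + 1 : ℕ) : ℤ) by push_cast; ring, zpow_natCast, pow_succ]
    ring
  have hkA : 𝒮.t ^ k * u ∈ 𝒮.A := 𝒮.A.mul_mem (𝒮.A.pow_mem 𝒮.ht _) hu.1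
  have hA : 𝒮.t ^ ((k : ℤ) + 1) * u ∈ 𝒮.A := by
    rw [e0]; exact 𝒮.A.mul_mem 𝒮.ht hkA
  have hnu : ¬ 𝒮.IsU (𝒮.t ^ ((k : ℤ) + 1) * u) := by
    rw [e0]; exact 𝒮.not_isU_mul 𝒮.ht hkA 𝒮.t_not_isU
  have h1 : u' - 𝒮.t ^ ((k : ℤ) + 1) * u ∈ 𝒮.A := 𝒮.A.sub_mem hu'.1 hA
  have h2 : ¬ 𝒮.IsU (u' - 𝒮.t ^ ((k : ℤ) + 1) * u) := by
    apply dlns_not_isU_of_oW_pos
    rcases h.symm 𝒮 with h | h
    · left; rw [h, sub_self]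
    · exact Or.inr h
  have h3 := dlns_nonunit_add 𝒮 hA h1 hnu h2
  rw [add_sub_cancel] at h3
  exact h3 hu'

/-- **uniqueness of the slope** -/
theorem slopeW_unique {z : F} {m m' : ℤ} {u u' : F} (hu : 𝒮.IsU u) (hu' : 𝒮.IsU u')
    (h : 𝒮.CongW z (𝒮.t ^ m * u)) (h' : 𝒮.CongW z (𝒮.t ^ m' * u')) : m = m' := by
  have ht0 := 𝒮.t_ne_zero
  have h1 : 𝒮.CongW (𝒮.t ^ m * u) (𝒮.t ^ m' * u') := (h.symm 𝒮).trans 𝒮 h'
  have h2 := h1.mul_left 𝒮 (a := 𝒮.t ^ (-m')) (Or.inr (by rw [dlns_oW_zpow, 𝒮.oW_t]; simp))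
  have e1 : 𝒮.t ^ (-m') * (𝒮.t ^ m * u) = 𝒮.t ^ (m - m') * u := by
    rw [← mul_assoc, ← zpow_add₀ ht0]; congr 2; ring
  have e2 : 𝒮.t ^ (-m') * (𝒮.t ^ m' * u') = u' := by
    rw [← mul_assoc, ← zpow_add₀ ht0]; simp
  rw [e1, e2] at h2
  have := 𝒮.slopeW_zero hu hu' h2
  omega

/-- the normalised function `z / ϖ ^ (ord_W z)` -/
noncomputable def nrm (z : F) : F := z / 𝒮.pi ^ (𝒮.oW z)

theorem nrm_ne_zero {z : F} (hz : z ≠ 0) : 𝒮.nrm z ≠ 0 :=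
  div_ne_zero hz (zpow_ne_zero _ (dlns_pi_ne_zero 𝒮))

theorem oW_nrm {z : F} (hz : z ≠ 0) : 𝒮.oW (𝒮.nrm z) = 0 := by
  unfold nrm
  rw [dlns_oW_div 𝒮 hz (zpow_ne_zero _ (dlns_pi_ne_zero 𝒮)), dlns_oW_zpow, dlns_oW_pi]
  ring

theorem nrm_mul {z z' : F} (hz : z ≠ 0) (hz' : z' ≠ 0) :
    𝒮.nrm (z * z') = 𝒮.nrm z * 𝒮.nrm z' := by
  unfold nrm
  rw [dlns_oW_mul 𝒮 hz hz', zpow_add₀ (dlns_pi_ne_zero 𝒮)]
  have := zpow_ne_zero (𝒮.oW z) (dlns_pi_ne_zero 𝒮)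
  have := zpow_ne_zero (𝒮.oW z') (dlns_pi_ne_zero 𝒮)
  field_simp

theorem nrm_of_oW_zero {z : F} (hz : 𝒮.oW z = 0) : 𝒮.nrm z = z := by
  unfold nrm
  rw [hz, zpow_zero, div_one]

theorem exists_slope {z : F} (hz : z ≠ 0) :
    ∃ (m : ℤ) (u : F), 𝒮.IsU u ∧ 𝒮.CongW (𝒮.nrm z) (𝒮.t ^ m * u) :=
  𝒮.exists_slopeW (𝒮.nrm_ne_zero hz) (𝒮.oW_nrm hz)

open Classical in
/-- **the slope** of a function at a smooth point of the special fibre -/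
noncomputable def slope (z : F) : ℤ :=
  if hz : z ≠ 0 then Classical.choose (𝒮.exists_slope hz) else 0

theorem slope_zero : 𝒮.slope 0 = 0 := by
  unfold slope
  rw [dif_neg (by simp)]

theorem slope_spec {z : F} (hz : z ≠ 0) :
    ∃ u : F, 𝒮.IsU u ∧ 𝒮.CongW (𝒮.nrm z) (𝒮.t ^ (𝒮.slope z) * u) := by
  unfold slope
  rw [dif_pos hz]
  exact Classical.choose_spec (𝒮.exists_slope hz)

/-- uniqueness of the slope -/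
theorem slope_eq {z : F} (hz : z ≠ 0) {m : ℤ} {u : F} (hu : 𝒮.IsU u)
    (h : 𝒮.CongW (𝒮.nrm z) (𝒮.t ^ m * u)) : 𝒮.slope z = m := by
  obtain ⟨u', hu', h'⟩ := 𝒮.slope_spec hz
  exact 𝒮.slopeW_unique hu' hu h' h

theorem oW_t_zpow_mul {m : ℤ} {u : F} (hu : 𝒮.IsU u) : 𝒮.oW (𝒮.t ^ m * u) = 0 := by
  rw [dlns_oW_mul 𝒮 (zpow_ne_zero _ 𝒮.t_ne_zero) hu.2.2, dlns_oW_zpow, 𝒮.oW_t, hu.oW]
  ring

theorem slope_mul {z z' : F} (hz : z ≠ 0) (hz' : z' ≠ 0) :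
    𝒮.slope (z * z') = 𝒮.slope z + 𝒮.slope z' := by
  obtain ⟨u, hu, h⟩ := 𝒮.slope_spec hz
  obtain ⟨u', hu', h'⟩ := 𝒮.slope_spec hz'
  refine 𝒮.slope_eq (mul_ne_zero hz hz') (hu.mul 𝒮 hu') ?_
  rw [𝒮.nrm_mul hz hz']
  have e : 𝒮.t ^ (𝒮.slope z + 𝒮.slope z') * (u * u') =
      (𝒮.t ^ (𝒮.slope z) * u) * (𝒮.t ^ (𝒮.slope z') * u') := by
    rw [zpow_add₀ 𝒮.t_ne_zero]; ring
  rw [e]
  refine h.mul 𝒮 h' (Or.inr ?_) (Or.inr ?_)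
  · rw [𝒮.oW_nrm hz']
  · rw [𝒮.oW_t_zpow_mul hu]

theorem slope_isU {u : F} (hu : 𝒮.IsU u) : 𝒮.slope u = 0 := by
  refine 𝒮.slope_eq hu.2.2 hu ?_
  rw [𝒮.nrm_of_oW_zero (hu.oW 𝒮), zpow_zero, one_mul]
  exact DlSmooth.CongW.refl _ _

theorem slope_one : 𝒮.slope 1 = 0 := 𝒮.slope_isU (dlns_isU_one 𝒮)

theorem slope_inv (z : F) : 𝒮.slope z⁻¹ = -𝒮.slope z := by
  rcases eq_or_ne z 0 with rfl | hz
  · rw [inv_zero, slope_zero]; ring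
  have h := 𝒮.slope_mul hz (inv_ne_zero hz)
  rw [mul_inv_cancel₀ hz, slope_one] at h
  omega

theorem slope_div {z z' : F} (hz : z ≠ 0) (hz' : z' ≠ 0) :
    𝒮.slope (z / z') = 𝒮.slope z - 𝒮.slope z' := by
  rw [div_eq_mul_inv, 𝒮.slope_mul hz (inv_ne_zero hz'), slope_inv]; ring

theorem slope_pow (z : F) (n : ℕ) : 𝒮.slope (z ^ n) = n * 𝒮.slope z := by
  rcases eq_or_ne z 0 with rfl | hz
  · rcases n with _ | n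
    · simp [slope_one]
    · rw [zero_pow (by omega), slope_zero]; ring
  induction n with
  | zero => simp [slope_one]
  | succ n ih =>
    rw [pow_succ, 𝒮.slope_mul (pow_ne_zero _ hz) hz, ih]
    push_cast; ring

theorem slope_zpow (z : F) (n : ℤ) : 𝒮.slope (z ^ n) = n * 𝒮.slope z := by
  rcases n with n | n
  · rw [Int.ofNat_eq_natCast, zpow_natCast, slope_pow]
  · rw [zpow_negSucc, slope_inv, slope_pow, Int.negSucc_eq]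
    push_cast; ring

theorem slope_t : 𝒮.slope 𝒮.t = 1 := by
  refine 𝒮.slope_eq 𝒮.t_ne_zero (dlns_isU_one 𝒮) ?_
  rw [𝒮.nrm_of_oW_zero 𝒮.oW_t, zpow_one, mul_one]
  exact DlSmooth.CongW.refl _ _

theorem slope_pi : 𝒮.slope 𝒮.pi = 0 := by
  refine 𝒮.slope_eq (dlns_pi_ne_zero 𝒮) (dlns_isU_one 𝒮) ?_
  unfold nrm
  rw [dlns_oW_pi, zpow_one, div_self (dlns_pi_ne_zero 𝒮), zpow_zero, one_mul]
  exact DlSmooth.CongW.refl _ _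

/-- constants have slope `0` -/
theorem slope_const {c : L} (hc : c ≠ 0) : 𝒮.slope (algebraMap L F c) = 0 := by
  have hπ : dlOrd 𝒮.O 𝒮.ϖ = 1 := dln_ord_of_unif 𝒮.O 𝒮.hϖ
  obtain ⟨u, hu, hcu⟩ := dl_exists_unit_mul_zpow 𝒮.O hπ hc
  have hU := dlns_isU_of_unit_O 𝒮 hu
  have e : algebraMap L F c = algebraMap L F u * 𝒮.pi ^ dlOrd 𝒮.O c := by
    conv_lhs => rw [hcu]
    rw [map_mul, map_zpow₀]
  rw [e, 𝒮.slope_mul hU.2.2 (zpow_ne_zero _ (dlns_pi_ne_zero 𝒮)), 𝒮.slope_isU hU,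
    slope_zpow, slope_pi]
  ring

/-- **the slope does not depend on the choice of the uniformiser of the branch** -/
theorem slope_eq_of_unif (τ : F) (hτA : τ ∈ 𝒮.A)
    (hτ : IsLocalRing.maximalIdeal (𝒮.P.B ⧸ 𝒮.ctr 𝒮.W 𝒮.hW) =
      Ideal.span {Ideal.Quotient.mk (𝒮.ctr 𝒮.W 𝒮.hW) ⟨τ, hτA⟩})
    {z : F} (hz : z ≠ 0) {m : ℤ} {u : F} (hu : 𝒮.IsU u)
    (h : 𝒮.CongW (z / 𝒮.pi ^ (𝒮.oW z)) (τ ^ m * u)) : 𝒮.slope z = m := by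
  obtain ⟨-, hmax⟩ := dlns_quot_dvr 𝒮
  have hass : Associated (Ideal.Quotient.mk (𝒮.ctr 𝒮.W 𝒮.hW) ⟨τ, hτA⟩)
      (Ideal.Quotient.mk (𝒮.ctr 𝒮.W 𝒮.hW) ⟨𝒮.t, 𝒮.ht⟩) := by
    rw [← Ideal.span_singleton_eq_span_singleton, ← hτ, ← hmax]
  obtain ⟨vb, hvb⟩ := hass
  obtain ⟨v, hv⟩ := Ideal.Quotient.mk_surjective (vb : 𝒮.P.B ⧸ 𝒮.ctr 𝒮.W 𝒮.hW)
  have hvu : IsUnit v := by
    apply isUnit_of_map_unit (Ideal.Quotient.mk (𝒮.ctr 𝒮.W 𝒮.hW))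
    rw [hv]
    exact vb.isUnit
  have hvU : 𝒮.IsU (v : F) := (dlns_isU_iff_isUnit 𝒮 v).mpr hvu
  have hmem : (⟨τ, hτA⟩ * v - ⟨𝒮.t, 𝒮.ht⟩ : 𝒮.P.B) ∈ 𝒮.ctr 𝒮.W 𝒮.hW := by
    rw [← Ideal.Quotient.eq_zero_iff_mem, map_sub, map_mul, hv, hvb, sub_self]
  rw [dlns_mem_ctrW] at hmem
  have hc : 𝒮.CongW (τ * (v : F)) 𝒮.t := by
    rcases hmem with h0 | h0
    · left
      have : τ * (v : F) - 𝒮.t = 0 := h0
      exact sub_eq_zero.mp this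
    · right
      exact h0
  have hc2 := hc.mul_left 𝒮 (a := (v : F)⁻¹) (Or.inr (by rw [(hvU.inv 𝒮).oW]))
  have e1 : (v : F)⁻¹ * (τ * (v : F)) = τ := by
    have := hvU.2.2
    field_simp
  rw [e1] at hc2
  have ht0 : (v : F)⁻¹ * 𝒮.t ≠ 0 := mul_ne_zero (inv_ne_zero hvU.2.2) 𝒮.t_ne_zero
  have htW : 𝒮.oW ((v : F)⁻¹ * 𝒮.t) = 0 := by
    rw [dlns_oW_mul 𝒮 (inv_ne_zero hvU.2.2) 𝒮.t_ne_zero, (hvU.inv 𝒮).oW, 𝒮.oW_t]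
    ring
  have hc3 := hc2.zpow 𝒮 ht0 htW m
  have hc4 := hc3.mul_left 𝒮 (a := u) (Or.inr (by rw [hu.oW]))
  rw [mul_comm u, mul_comm u] at hc4
  have e2 : ((v : F)⁻¹ * 𝒮.t) ^ m * u = 𝒮.t ^ m * ((v : F)⁻¹ ^ m * u) := by
    rw [mul_zpow]; ring
  rw [e2] at hc4
  exact 𝒮.slope_eq hz (((hvU.inv 𝒮).zpow 𝒮 m).mul 𝒮 hu) (h.trans 𝒮 hc4)

end DlSmooth

/-- **functions without horizontal part at a smooth point** are `ϖ ^ n · unit` and have slope `0` -/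
theorem dlns_slope_form (𝒮 : DlSmooth L F) {z : F} (hz : z ≠ 0)
    (hH : ∀ (V : ValuationSubring F) (hV : V ∈ 𝒮.hor), 𝒮.oH V hV z = 0) :
    𝒮.IsU (z / 𝒮.pi ^ (𝒮.oW z)) ∧ 𝒮.slope z = 0 := by
  have hp := dlns_pi_ne_zero 𝒮
  have hU : 𝒮.IsU (z / 𝒮.pi ^ (𝒮.oW z)) := by
    refine dlns_isU_of 𝒮 (div_ne_zero hz (zpow_ne_zero _ hp)) ?_ ?_
    · rw [dlns_oW_div 𝒮 hz (zpow_ne_zero _ hp), dlns_oW_zpow, dlns_oW_pi]; ring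
    · intro V hV
      rw [dlns_oH_div 𝒮 hV hz (zpow_ne_zero _ hp), dlns_oH_zpow, dlns_oH_pi, hH V hV]; ring
  refine ⟨hU, ?_⟩
  have e : z = (z / 𝒮.pi ^ (𝒮.oW z)) * 𝒮.pi ^ (𝒮.oW z) := by
    have := zpow_ne_zero (𝒮.oW z) hp
    field_simp
  rw [e, 𝒮.slope_mul hU.2.2 (zpow_ne_zero _ hp), 𝒮.slope_isU hU, 𝒮.slope_zpow, 𝒮.slope_pi]
  ring

end Fermat.Agent.Delta
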