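/-
DELTA / NODE-ABS (helper8), smooth points, part 3: **the coordinate lemma at a smooth point**.

`𝒮 : DlSmooth L F` (`𝔪_A = (t, ϖ)`, residue field `k`, (FIN)).  For every horizontal valuation ring
`V` through the point there is a monic `N ∈ O[X]` (the minimal polynomial over `O` of `t mod 𝔭_V`)
such that `g_V := N(t)` is a uniformiser of `V` and a unit of every other horizontal valuation ring
through the point.  Same proof as `Node/Coord.lean` (Nakayama over `O[t] ⊆ A`), simpler.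

* `DlSmooth.nak`, `DlSmooth.R0_poly`, `DlSmooth.finite_quot_ctr/inf/sq`;
* `DlSmooth.cN`, `cN_dvd`, `cN_not_mem`, `cN_simple`, `DlSmooth.gV`, `oH_gV_self`, `oH_gV_other`;
* `dlns_coord` : literal form.
-/
import Fermat.Agent.Lib.Delta.Node.Smooth.Slope
import Fermat.Agent.Lib.Delta.Node.Coord

set_option autoImplicit false
set_option linter.style.haveILetI false
set_option linter.unusedSectionVars false
set_option linter.unusedVariables false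

namespace Fermat.Agent.Delta

open Fermat.Agent.T4

variable {L F : Type*} [Field L] [Field F] [Algebra L F]

/-- the structure map `O → A` -/
def DlSmooth.ofO (𝒮 : DlSmooth L F) : 𝒮.O →+* 𝒮.P.B :=
  ((algebraMap L F).comp 𝒮.O.subtype).codRestrict 𝒮.P.B (fun c => 𝒮.O_le c c.2)

/-- `A` as an `O`-algebra -/
@[reducible] def DlSmooth.algOA (𝒮 : DlSmooth L F) : Algebra 𝒮.O 𝒮.P.B := 𝒮.ofO.toAlgebra

attribute [local instance] DlSmooth.algOA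

theorem DlSmooth.algebraMap_OA_coe (𝒮 : DlSmooth L F) (c : 𝒮.O) :
    ((algebraMap 𝒮.O 𝒮.P.B c : 𝒮.P.B) : F) = algebraMap L F (c : L) := rfl

theorem DlSmooth.varpi_mem (𝒮 : DlSmooth L F) : 𝒮.ϖ ∈ 𝒮.O :=
  (𝒮.O.valuation_le_one_iff _).mp 𝒮.hϖ.1.le

/-- `ϖ` as an element of `O` -/
def DlSmooth.piO (𝒮 : DlSmooth L F) : 𝒮.O := ⟨𝒮.ϖ, 𝒮.varpi_mem⟩

theorem DlSmooth.piA_not_isUnit (𝒮 : DlSmooth L F) : ¬ IsUnit 𝒮.piA := by
  intro h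
  have h1 : 𝒮.IsU 𝒮.pi := (dlns_isU_iff_isUnit 𝒮 𝒮.piA).mpr h
  have h2 := h1.oW 𝒮
  rw [dlns_oW_pi] at h2
  norm_num at h2

namespace DlSmooth

variable (𝒮 : DlSmooth L F)

/-- `t` as an element of `A` -/
def tA : 𝒮.P.B := ⟨𝒮.t, 𝒮.ht⟩

/-- the subring `O[t] ⊆ A` -/
def R0 : Subalgebra 𝒮.O 𝒮.P.B := Algebra.adjoin 𝒮.O {𝒮.tA}

theorem tA_mem_R0 : 𝒮.tA ∈ 𝒮.R0 := Algebra.subset_adjoin (by simp)

/-- **Nakayama**: if `A ⧸ I` is a finite `O[t]`-module, then `A = O[t] + I` -/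
theorem nak (I : Ideal 𝒮.P.B) [Module.Finite 𝒮.R0 (𝒮.P.B ⧸ I)] (f : 𝒮.P.B) :
    ∃ r : 𝒮.R0, f - r ∈ I := by
  classical
  let 𝔞 : Ideal 𝒮.R0 := Ideal.span {algebraMap 𝒮.O 𝒮.R0 𝒮.piO, ⟨𝒮.tA, 𝒮.tA_mem_R0⟩}
  let N : Submodule 𝒮.R0 (𝒮.P.B ⧸ I) := Submodule.span 𝒮.R0 {Ideal.Quotient.mk I 1}
  have h1 : (⊤ : Submodule 𝒮.R0 (𝒮.P.B ⧸ I)) ≤ N ⊔ 𝔞 • ⊤ := by
    intro x _
    obtain ⟨g, rfl⟩ := Ideal.Quotient.mk_surjective x
    obtain ⟨a, ha, hnu⟩ := 𝒮.resk g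
    obtain ⟨a₁, c₁, e⟩ := 𝒮.max _ hnu
    have e' : g = algebraMap 𝒮.O 𝒮.P.B ⟨a, ha⟩ + (𝒮.tA * a₁ + 𝒮.piA * c₁) := by
      apply Subtype.ext
      have e2 : (g : F) - algebraMap L F a =
          (a₁ : F) * 𝒮.t + (c₁ : F) * algebraMap L F 𝒮.ϖ := e
      show (g : F) = algebraMap L F a + (𝒮.t * (a₁ : F) + algebraMap L F 𝒮.ϖ * (c₁ : F))
      linear_combination e2
    rw [e', map_add]
    refine Submodule.add_mem_sup ?_ ?_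
    · have : Ideal.Quotient.mk I (algebraMap 𝒮.O 𝒮.P.B ⟨a, ha⟩) =
          (algebraMap 𝒮.O 𝒮.R0 ⟨a, ha⟩) • Ideal.Quotient.mk I 1 := by
        show _ = Ideal.Quotient.mk I (((algebraMap 𝒮.O 𝒮.R0 ⟨a, ha⟩ : 𝒮.R0) : 𝒮.P.B) * 1)
        rw [mul_one]; rfl
      rw [this]
      exact Submodule.smul_mem _ _ (Submodule.subset_span rfl)
    · rw [map_add]
      refine Submodule.add_mem _ ?_ ?_
      · have : Ideal.Quotient.mk I (𝒮.tA * a₁) =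
            (⟨𝒮.tA, 𝒮.tA_mem_R0⟩ : 𝒮.R0) • Ideal.Quotient.mk I a₁ := rfl
        rw [this]
        exact Submodule.smul_mem_smul (Ideal.subset_span (by simp)) Submodule.mem_top
      · have : Ideal.Quotient.mk I (𝒮.piA * c₁) =
            (algebraMap 𝒮.O 𝒮.R0 𝒮.piO) • Ideal.Quotient.mk I c₁ := rfl
        rw [this]
        exact Submodule.smul_mem_smul (Ideal.subset_span (by simp)) Submodule.mem_top
  obtain ⟨r, hr1, hr2⟩ := Submodule.exists_sub_one_mem_and_smul_le_of_fg_of_le_sup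
    (Module.Finite.fg_top) le_rfl h1
  have h𝔞 : 𝔞 ≤ Ideal.comap (algebraMap 𝒮.R0 𝒮.P.B) (IsLocalRing.maximalIdeal 𝒮.P.B) := by
    rw [Ideal.span_le]
    intro x hx
    simp only [Set.mem_insert_iff, Set.mem_singleton_iff] at hx
    rcases hx with rfl | rfl
    · exact 𝒮.piA_not_isUnit
    · exact 𝒮.t_nu
  have hr3 : ((r : 𝒮.P.B) - 1) ∈ IsLocalRing.maximalIdeal 𝒮.P.B := h𝔞 hr1
  have hru : IsUnit (r : 𝒮.P.B) := by
    rcases IsLocalRing.isUnit_or_isUnit_one_sub_self (r : 𝒮.P.B) with h | h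
    · exact h
    · exfalso
      have : (1 - (r : 𝒮.P.B)) ∈ IsLocalRing.maximalIdeal 𝒮.P.B := by
        have := (IsLocalRing.maximalIdeal 𝒮.P.B).neg_mem hr3
        rwa [neg_sub] at this
      exact this h
  obtain ⟨ρ, hρ⟩ := hru
  have h2 : r • Ideal.Quotient.mk I ((ρ⁻¹ : (𝒮.P.B)ˣ) * f) ∈ N :=
    hr2 (Submodule.smul_mem_pointwise_smul _ r ⊤ Submodule.mem_top)
  have h3 : r • Ideal.Quotient.mk I ((ρ⁻¹ : (𝒮.P.B)ˣ) * f) = Ideal.Quotient.mk I f := by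
    show Ideal.Quotient.mk I ((r : 𝒮.P.B) * (((ρ⁻¹ : (𝒮.P.B)ˣ) : 𝒮.P.B) * f)) = _
    rw [← hρ, ← mul_assoc, Units.mul_inv, one_mul]
  rw [h3, Submodule.mem_span_singleton] at h2
  obtain ⟨s, hs⟩ := h2
  refine ⟨s, ?_⟩
  have h4 : s • Ideal.Quotient.mk I 1 = Ideal.Quotient.mk I (s : 𝒮.P.B) := by
    show Ideal.Quotient.mk I ((s : 𝒮.P.B) * 1) = _
    rw [mul_one]
  rw [h4] at hs
  rw [← Ideal.Quotient.eq_zero_iff_mem, map_sub, hs, sub_self]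

/-- elements of `O[t]` are polynomials in `t` -/
theorem R0_poly {r : 𝒮.P.B} (hr : r ∈ 𝒮.R0) :
    ∃ Q : Polynomial 𝒮.O, r = Polynomial.aeval 𝒮.tA Q := by
  unfold R0 at hr
  rw [Algebra.adjoin_singleton_eq_range_aeval] at hr
  obtain ⟨Q, hQ⟩ := hr
  exact ⟨Q, hQ.symm⟩

/-! ### finiteness -/

/-- (FIN) as a `Module.Finite` statement -/
theorem finite_quot_ctr {V : ValuationSubring F} (hV : V ∈ 𝒮.hor) :
    Module.Finite 𝒮.O (𝒮.P.B ⧸ 𝒮.ctr V hV.1) := by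
  classical
  obtain ⟨S, hS, hfin⟩ := 𝒮.fin V hV.1 hV.2
  let v : ↥S → (𝒮.P.B ⧸ 𝒮.ctr V hV.1) := fun s => Ideal.Quotient.mk _ ⟨s.1, hS s.1 s.2⟩
  refine Module.Finite.of_surjective (Fintype.linearCombination 𝒮.O v) ?_
  intro x
  obtain ⟨f, rfl⟩ := Ideal.Quotient.mk_surjective x
  obtain ⟨c, hc, hval⟩ := hfin f f.2
  refine ⟨fun s => ⟨c s.1, hc s.1⟩, ?_⟩
  rw [Fintype.linearCombination_apply]
  have h1 : ∑ s : ↥S, (⟨c s.1, hc s.1⟩ : 𝒮.O) • v s = Ideal.Quotient.mk (𝒮.ctr V hV.1)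
      (∑ s : ↥S, algebraMap 𝒮.O 𝒮.P.B ⟨c s.1, hc s.1⟩ * ⟨s.1, hS s.1 s.2⟩) := by
    rw [map_sum]
    rfl
  rw [h1, Ideal.Quotient.eq, DlSmooth.mem_ctr]
  have h2 : ((∑ s : ↥S, algebraMap 𝒮.O 𝒮.P.B ⟨c s.1, hc s.1⟩ * ⟨s.1, hS s.1 s.2⟩ - f :
      𝒮.P.B) : F) = -((f : F) - ∑ s ∈ S, algebraMap L F (c s) * s) := by
    rw [neg_sub, ← Finset.sum_coe_sort S (fun s => algebraMap L F (c s) * s)]
    push_cast
    rfl
  rw [h2, Valuation.map_neg]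
  exact hval

theorem finite_quot_ctr_R0 {V : ValuationSubring F} (hV : V ∈ 𝒮.hor) :
    Module.Finite 𝒮.R0 (𝒮.P.B ⧸ 𝒮.ctr V hV.1) := by
  haveI := 𝒮.finite_quot_ctr hV
  exact Module.Finite.of_restrictScalars_finite 𝒮.O 𝒮.R0 _

theorem finite_quot_inf {V V' : ValuationSubring F} (hV : V ∈ 𝒮.hor) (hV' : V' ∈ 𝒮.hor) :
    Module.Finite 𝒮.R0 (𝒮.P.B ⧸ (𝒮.ctr V hV.1 ⊓ 𝒮.ctr V' hV'.1)) := by
  haveI := 𝒮.finite_quot_ctr hV
  haveI := 𝒮.finite_quot_ctr hV'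
  let φ : (𝒮.P.B ⧸ (𝒮.ctr V hV.1 ⊓ 𝒮.ctr V' hV'.1)) →ₗ[𝒮.O]
      (𝒮.P.B ⧸ 𝒮.ctr V hV.1) × (𝒮.P.B ⧸ 𝒮.ctr V' hV'.1) :=
    (Ideal.Quotient.factorₐ 𝒮.O inf_le_left).toLinearMap.prod
      (Ideal.Quotient.factorₐ 𝒮.O inf_le_right).toLinearMap
  haveI : Module.Finite 𝒮.O (𝒮.P.B ⧸ (𝒮.ctr V hV.1 ⊓ 𝒮.ctr V' hV'.1)) := by
    refine Module.Finite.of_injective φ ?_
    rw [injective_iff_map_eq_zero]
    intro x hx
    obtain ⟨f, rfl⟩ := Ideal.Quotient.mk_surjective x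
    have h1 : Ideal.Quotient.mk (𝒮.ctr V hV.1) f = 0 := congrArg Prod.fst hx
    have h2 : Ideal.Quotient.mk (𝒮.ctr V' hV'.1) f = 0 := congrArg Prod.snd hx
    rw [Ideal.Quotient.eq_zero_iff_mem] at h1 h2 ⊢
    exact ⟨h1, h2⟩
  exact Module.Finite.of_restrictScalars_finite 𝒮.O 𝒮.R0 _

theorem finite_quot_sq {V : ValuationSubring F} (hV : V ∈ 𝒮.hor) :
    Module.Finite 𝒮.R0 (𝒮.P.B ⧸ (𝒮.ctr V hV.1 * 𝒮.ctr V hV.1)) := by
  classical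
  haveI := 𝒮.finite_quot_ctr_R0 hV
  obtain ⟨G, hG⟩ := (IsNoetherian.noetherian (𝒮.ctr V hV.1) : (𝒮.ctr V hV.1).FG)
  let T : Submodule 𝒮.R0 (𝒮.P.B ⧸ (𝒮.ctr V hV.1 * 𝒮.ctr V hV.1)) :=
    Submodule.span 𝒮.R0 (Ideal.Quotient.mk (𝒮.ctr V hV.1 * 𝒮.ctr V hV.1) '' (insert 1 ↑G))
  have hT1 : ∀ r : 𝒮.R0, Ideal.Quotient.mk (𝒮.ctr V hV.1 * 𝒮.ctr V hV.1) (r : 𝒮.P.B) ∈ T := by
    intro r
    have : Ideal.Quotient.mk (𝒮.ctr V hV.1 * 𝒮.ctr V hV.1) (r : 𝒮.P.B) =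
        r • Ideal.Quotient.mk (𝒮.ctr V hV.1 * 𝒮.ctr V hV.1) 1 := by
      show _ = Ideal.Quotient.mk (𝒮.ctr V hV.1 * 𝒮.ctr V hV.1) ((r : 𝒮.P.B) * 1)
      rw [mul_one]
    rw [this]
    exact Submodule.smul_mem _ _ (Submodule.subset_span ⟨1, Set.mem_insert _ _, rfl⟩)
  have hT2 : ∀ y ∈ 𝒮.ctr V hV.1,
      Ideal.Quotient.mk (𝒮.ctr V hV.1 * 𝒮.ctr V hV.1) y ∈ T := by
    intro y hy
    have hy' : y ∈ Submodule.span 𝒮.P.B (G : Set 𝒮.P.B) := by rw [hG]; exact hy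
    induction hy' using Submodule.span_induction with
    | mem g hg => exact Submodule.subset_span ⟨g, Set.mem_insert_of_mem _ hg, rfl⟩
    | zero => rw [map_zero]; exact T.zero_mem
    | add x z hx hz ihx ihz =>
      rw [map_add]
      have hx' : x ∈ 𝒮.ctr V hV.1 := by rw [← hG]; exact hx
      have hz' : z ∈ 𝒮.ctr V hV.1 := by rw [← hG]; exact hz
      exact T.add_mem (ihx hx') (ihz hz')
    | smul a x hx ih =>
      have hx' : x ∈ 𝒮.ctr V hV.1 := by rw [← hG]; exact hx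
      obtain ⟨r, hr⟩ := 𝒮.nak (𝒮.ctr V hV.1) a
      have e : a • x = (r : 𝒮.P.B) * x + (a - r) * x := by
        rw [smul_eq_mul]; ring
      rw [e, map_add]
      refine T.add_mem ?_ ?_
      · have : Ideal.Quotient.mk (𝒮.ctr V hV.1 * 𝒮.ctr V hV.1) ((r : 𝒮.P.B) * x) =
            r • Ideal.Quotient.mk (𝒮.ctr V hV.1 * 𝒮.ctr V hV.1) x := rfl
        rw [this]
        exact T.smul_mem _ (ih hx')
      · have : Ideal.Quotient.mk (𝒮.ctr V hV.1 * 𝒮.ctr V hV.1) ((a - r) * x) = 0 := by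
          rw [Ideal.Quotient.eq_zero_iff_mem]
          exact Ideal.mul_mem_mul hr hx'
        rw [this]
        exact T.zero_mem
  refine ⟨Submodule.fg_def.mpr ⟨Ideal.Quotient.mk (𝒮.ctr V hV.1 * 𝒮.ctr V hV.1) '' (insert 1 ↑G),
    (Set.Finite.image _ (Set.Finite.insert _ G.finite_toSet)), eq_top_iff.mpr ?_⟩⟩
  intro x _
  show x ∈ T
  obtain ⟨f, rfl⟩ := Ideal.Quotient.mk_surjective x
  obtain ⟨r, hr⟩ := 𝒮.nak (𝒮.ctr V hV.1) f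
  have e : f = (r : 𝒮.P.B) + (f - r) := by ring
  rw [e, map_add]
  exact T.add_mem (hT1 r) (hT2 _ hr)

end DlSmooth

/-! ### distinct valuation rings of the presentation have incomparable centres -/

section Ctr

variable (𝒮 : DlSmooth L F)

theorem dlns_le_of_ctr_le {V V' : ValuationSubring F} (hV : V ∈ 𝒮.P.vals) (hV' : V' ∈ 𝒮.P.vals)
    (h : 𝒮.ctr V hV ≤ 𝒮.ctr V' hV') : V' ≤ V := by
  intro x hx
  obtain ⟨c, hcB, hc1, hcx⟩ := 𝒮.P.essential V' hV' x hx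
  have h1 : (⟨c, hcB⟩ : 𝒮.P.B) ∉ 𝒮.ctr V hV := by
    intro hc
    have := h hc
    rw [DlSmooth.mem_ctr] at this
    rw [hc1] at this
    exact lt_irrefl _ this
  have h2 : V.valuation c = 1 := by
    have hle : V.valuation c ≤ 1 := (V.valuation_le_one_iff _).mpr (𝒮.P.B_le hV hcB)
    exact le_antisymm hle (not_lt.mp (fun hlt => h1 hlt))
  have h3 : V.valuation (c * x) ≤ 1 := (V.valuation_le_one_iff _).mpr (𝒮.P.B_le hV hcx)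
  rw [map_mul, h2, one_mul] at h3
  exact (V.valuation_le_one_iff _).mp h3

theorem dlns_exists_mem_ctr_not_mem {V V' : ValuationSubring F} (hV : V ∈ 𝒮.P.vals)
    (hV' : V' ∈ 𝒮.P.vals) (hne : V ≠ V') : ∃ f : 𝒮.P.B, f ∈ 𝒮.ctr V hV ∧ f ∉ 𝒮.ctr V' hV' := by
  by_contra hcon
  push Not at hcon
  haveI := 𝒮.P.dvr V hV
  haveI := 𝒮.P.dvr V' hV'
  exact hne (dln_eq_of_le (dlns_le_of_ctr_le 𝒮 hV hV' hcon))

end Ctr

/-! ### the minimal polynomial of `t` modulo `𝔭_V` -/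

namespace DlSmooth

variable (𝒮 : DlSmooth L F) {V : ValuationSubring F} (hV : V ∈ 𝒮.hor)

/-- the image of `t` in `A ⧸ 𝔭_V` -/
def alpha : 𝒮.P.B ⧸ 𝒮.ctr V hV.1 := Ideal.Quotient.mk _ 𝒮.tA

theorem aeval_alpha (Q : Polynomial 𝒮.O) :
    Polynomial.aeval (𝒮.alpha hV) Q =
      Ideal.Quotient.mk (𝒮.ctr V hV.1) (Polynomial.aeval 𝒮.tA Q) :=
  Polynomial.aeval_algHom_apply (Ideal.Quotient.mkₐ 𝒮.O (𝒮.ctr V hV.1)) 𝒮.tA Q

theorem algebraMap_quot_injective :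
    Function.Injective (algebraMap 𝒮.O (𝒮.P.B ⧸ 𝒮.ctr V hV.1)) := by
  rw [injective_iff_map_eq_zero]
  intro c hc
  by_contra hc0
  have h1 : algebraMap 𝒮.O 𝒮.P.B c ∈ 𝒮.ctr V hV.1 := by
    rw [← Ideal.Quotient.eq_zero_iff_mem]
    exact hc
  rw [DlSmooth.mem_ctr, DlSmooth.algebraMap_OA_coe] at h1
  have hcL : (c : L) ≠ 0 := fun h => hc0 (Subtype.ext h)
  have h2 := (dlns_const 𝒮 hcL).2 V hV
  haveI := 𝒮.P.dvr V hV.1
  have h3 : V.valuation (algebraMap L F (c : L)) = 1 :=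
    (dl_valuation_eq_one_iff V ((map_ne_zero _).mpr hcL)).mpr h2
  rw [h3] at h1
  exact lt_irrefl _ h1

theorem isIntegral_alpha : IsIntegral 𝒮.O (𝒮.alpha hV) := by
  haveI := 𝒮.finite_quot_ctr hV
  exact IsIntegral.of_finite 𝒮.O _

/-- the minimal polynomial of `t` modulo `𝔭_V` -/
noncomputable def cN : Polynomial 𝒮.O := minpoly 𝒮.O (𝒮.alpha hV)

theorem cN_monic : (𝒮.cN hV).Monic := minpoly.monic (𝒮.isIntegral_alpha hV)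

theorem cN_aeval_mem : Polynomial.aeval 𝒮.tA (𝒮.cN hV) ∈ 𝒮.ctr V hV.1 := by
  rw [← Ideal.Quotient.eq_zero_iff_mem, ← 𝒮.aeval_alpha hV]
  exact minpoly.aeval _ _

theorem cN_dvd {Q : Polynomial 𝒮.O} (hQ : Polynomial.aeval 𝒮.tA Q ∈ 𝒮.ctr V hV.1) :
    𝒮.cN hV ∣ Q := by
  haveI : Module.IsTorsionFree 𝒮.O (𝒮.P.B ⧸ 𝒮.ctr V hV.1) :=
    Module.isTorsionFree_iff_algebraMap_injective.mpr (𝒮.algebraMap_quot_injective hV)
  refine minpoly.isIntegrallyClosed_dvd (𝒮.isIntegral_alpha hV) ?_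
  rw [𝒮.aeval_alpha hV, Ideal.Quotient.eq_zero_iff_mem]
  exact hQ

theorem mem_ctr_hor_iff {V' : ValuationSubring F} (hV' : V' ∈ 𝒮.hor) {f : 𝒮.P.B} :
    f ∈ 𝒮.ctr V' hV'.1 ↔ (f : F) = 0 ∨ 0 < 𝒮.oH V' hV' f := by
  haveI := 𝒮.P.dvr V' hV'.1
  rw [DlSmooth.mem_ctr]
  constructor
  · intro h
    by_cases h0 : (f : F) = 0
    · exact Or.inl h0
    · exact Or.inr ((dl_valuation_lt_one_iff V' h0).mp h)
  · rintro (h | h)
    · rw [h, map_zero]; exact zero_lt_one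
    · have h0 : (f : F) ≠ 0 := dln_ne_zero_of_ord_ne V' (by
        have : 0 < dlOrd V' (f : F) := h
        omega)
      exact (dl_valuation_lt_one_iff V' h0).mpr h

/-- **no other zero**: `N(t)` is a unit at the other horizontal valuation rings -/
theorem cN_not_mem {V' : ValuationSubring F} (hV' : V' ∈ 𝒮.hor) (hne : V' ≠ V) :
    Polynomial.aeval 𝒮.tA (𝒮.cN hV) ∉ 𝒮.ctr V' hV'.1 := by
  intro hmem
  obtain ⟨f, hf, hf'⟩ := dlns_exists_mem_ctr_not_mem 𝒮 hV.1 hV'.1 (Ne.symm hne)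
  haveI := 𝒮.finite_quot_inf hV hV'
  obtain ⟨r, hr⟩ := 𝒮.nak (𝒮.ctr V hV.1 ⊓ 𝒮.ctr V' hV'.1) f
  obtain ⟨Q, hQ⟩ := 𝒮.R0_poly r.2
  have h1 : f - Polynomial.aeval 𝒮.tA Q ∈ 𝒮.ctr V hV.1 ⊓ 𝒮.ctr V' hV'.1 := by
    rw [← hQ]; exact hr
  have h2 : Polynomial.aeval 𝒮.tA Q ∈ 𝒮.ctr V hV.1 := by
    have := (𝒮.ctr V hV.1).sub_mem hf h1.1
    rwa [sub_sub_cancel] at this
  obtain ⟨Q₂, rfl⟩ := 𝒮.cN_dvd hV h2
  have h3 : Polynomial.aeval 𝒮.tA (𝒮.cN hV * Q₂) ∈ 𝒮.ctr V' hV'.1 := by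
    rw [map_mul]; exact Ideal.mul_mem_right _ _ hmem
  have h4 : f ∈ 𝒮.ctr V' hV'.1 := by
    have := (𝒮.ctr V' hV'.1).add_mem h1.2 h3
    rwa [sub_add_cancel] at this
  exact hf' h4

/-- **simple zero**: `N(t)` is a uniformiser of `V` -/
theorem cN_simple : ((Polynomial.aeval 𝒮.tA (𝒮.cN hV) : 𝒮.P.B) : F) ≠ 0 ∧
    𝒮.oH V hV ((Polynomial.aeval 𝒮.tA (𝒮.cN hV) : 𝒮.P.B) : F) = 1 := by
  haveI := 𝒮.P.dvr V hV.1
  by_contra hcon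
  have hg2 : ((Polynomial.aeval 𝒮.tA (𝒮.cN hV) : 𝒮.P.B) : F) = 0 ∨
      2 ≤ 𝒮.oH V hV ((Polynomial.aeval 𝒮.tA (𝒮.cN hV) : 𝒮.P.B) : F) := by
    rcases (𝒮.mem_ctr_hor_iff hV).mp (𝒮.cN_aeval_mem hV) with h1 | h1
    · exact Or.inl h1
    · right
      by_contra h2
      push Not at h2
      apply hcon
      refine ⟨?_, by omega⟩
      intro h0
      rw [h0] at h1
      have : 𝒮.oH V hV (0 : F) = 0 := dlOrd_zero V
      omega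
  obtain ⟨h, hhA, hh⟩ := dlns_exists_unif 𝒮 V hV.1
  have hh0 : h ≠ 0 := dln_ne_zero_of_ord_ne V (by omega)
  haveI := 𝒮.finite_quot_sq hV
  obtain ⟨r, hr⟩ := 𝒮.nak (𝒮.ctr V hV.1 * 𝒮.ctr V hV.1) ⟨h, hhA⟩
  obtain ⟨Q, hQ⟩ := 𝒮.R0_poly r.2
  have h1 : ⟨h, hhA⟩ - Polynomial.aeval 𝒮.tA Q ∈ 𝒮.ctr V hV.1 * 𝒮.ctr V hV.1 := by
    rw [← hQ]; exact hr
  have hP2 : ∀ y ∈ 𝒮.ctr V hV.1 * 𝒮.ctr V hV.1, (y : F) = 0 ∨ 2 ≤ 𝒮.oH V hV (y : F) := by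
    intro y hy
    refine Submodule.mul_induction_on hy ?_ ?_
    · intro a ha b hb
      rcases (𝒮.mem_ctr_hor_iff hV).mp ha with ha | ha
      · left; rw [Subring.coe_mul, ha, zero_mul]
      rcases (𝒮.mem_ctr_hor_iff hV).mp hb with hb | hb
      · left; rw [Subring.coe_mul, hb, mul_zero]
      right
      have ha0 : (a : F) ≠ 0 := dln_ne_zero_of_ord_ne V (by
        have : 0 < dlOrd V (a : F) := ha
        omega)
      have hb0 : (b : F) ≠ 0 := dln_ne_zero_of_ord_ne V (by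
        have : 0 < dlOrd V (b : F) := hb
        omega)
      rw [Subring.coe_mul, dlns_oH_mul 𝒮 hV ha0 hb0]
      omega
    · intro a b iha ihb
      by_cases h0 : ((a + b : 𝒮.P.B) : F) = 0
      · exact Or.inl h0
      right
      rw [Subring.coe_add] at h0 ⊢
      exact dlOrd_add_ge V h0 (n := 2) iha ihb
  have hhp : (⟨h, hhA⟩ : 𝒮.P.B) ∈ 𝒮.ctr V hV.1 := by
    rw [𝒮.mem_ctr_hor_iff hV]
    right
    show 0 < dlOrd V h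
    omega
  have h2 : Polynomial.aeval 𝒮.tA Q ∈ 𝒮.ctr V hV.1 := by
    have := (𝒮.ctr V hV.1).sub_mem hhp (Ideal.mul_le_left h1)
    rwa [sub_sub_cancel] at this
  obtain ⟨Q₂, rfl⟩ := 𝒮.cN_dvd hV h2
  have h3 : ((Polynomial.aeval 𝒮.tA (𝒮.cN hV * Q₂) : 𝒮.P.B) : F) = 0 ∨
      2 ≤ 𝒮.oH V hV ((Polynomial.aeval 𝒮.tA (𝒮.cN hV * Q₂) : 𝒮.P.B) : F) := by
    rw [map_mul, Subring.coe_mul]
    rcases hg2 with hg2 | hg2
    · left; rw [hg2, zero_mul]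
    by_cases hq : ((Polynomial.aeval 𝒮.tA Q₂ : 𝒮.P.B) : F) = 0
    · left; rw [hq, mul_zero]
    right
    have hg0 : ((Polynomial.aeval 𝒮.tA (𝒮.cN hV) : 𝒮.P.B) : F) ≠ 0 :=
      dln_ne_zero_of_ord_ne V (by
        have : 2 ≤ dlOrd V ((Polynomial.aeval 𝒮.tA (𝒮.cN hV) : 𝒮.P.B) : F) := hg2
        omega)
    rw [dlns_oH_mul 𝒮 hV hg0 hq]
    have := dlns_oH_nonneg 𝒮 (Polynomial.aeval 𝒮.tA Q₂ : 𝒮.P.B).2 hV
    omega
  have h6 : h = ((⟨h, hhA⟩ - Polynomial.aeval 𝒮.tA (𝒮.cN hV * Q₂) : 𝒮.P.B) : F) +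
      ((Polynomial.aeval 𝒮.tA (𝒮.cN hV * Q₂) : 𝒮.P.B) : F) := by
    push_cast
    ring
  have h7 := dlOrd_add_ge V (by rw [← h6]; exact hh0) (n := 2) (hP2 _ h1) h3
  rw [← h6] at h7
  omega

/-- **the coordinate function** `g_V = N_V(t)` of a horizontal valuation ring -/
noncomputable def gV : F := ((Polynomial.aeval 𝒮.tA (𝒮.cN hV) : 𝒮.P.B) : F)

theorem gV_mem : 𝒮.gV hV ∈ 𝒮.A := (Polynomial.aeval 𝒮.tA (𝒮.cN hV) : 𝒮.P.B).2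

theorem gV_ne_zero : 𝒮.gV hV ≠ 0 := (𝒮.cN_simple hV).1

theorem oH_gV_self : 𝒮.oH V hV (𝒮.gV hV) = 1 := (𝒮.cN_simple hV).2

theorem oH_gV_other {V' : ValuationSubring F} (hV' : V' ∈ 𝒮.hor) (hne : V' ≠ V) :
    𝒮.oH V' hV' (𝒮.gV hV) = 0 := by
  have h1 := 𝒮.cN_not_mem hV hV' hne
  rw [𝒮.mem_ctr_hor_iff hV'] at h1
  push Not at h1
  have h2 := dlns_oH_nonneg 𝒮 (𝒮.gV_mem hV) hV'
  have h3 : 𝒮.oH V' hV' (𝒮.gV hV) ≤ 0 := h1.2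
  omega

/-- `g_V` as the value at `t` of a polynomial with coefficients in `L` -/
theorem gV_eq_aeval :
    𝒮.gV hV = Polynomial.aeval 𝒮.t ((𝒮.cN hV).map 𝒮.O.subtype) := by
  unfold gV
  rw [Polynomial.aeval_def, Polynomial.aeval_def, Polynomial.eval₂_map]
  have := Polynomial.hom_eval₂ (𝒮.cN hV) (algebraMap 𝒮.O 𝒮.P.B) 𝒮.P.B.subtype 𝒮.tA
  exact this

end DlSmooth

/-- **the coordinate lemma at a smooth point**, literal form -/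
theorem dlns_coord (𝒮 : DlSmooth L F) (V : ValuationSubring F) (hV : V ∈ 𝒮.hor) :
    ∃ N : Polynomial L, N.Monic ∧ (∀ i, N.coeff i ∈ 𝒮.O) ∧
      (haveI := 𝒮.P.dvr V hV.1; dlOrd V (Polynomial.aeval 𝒮.t N) = 1) ∧
      ∀ V' ∈ 𝒮.hor, V' ≠ V → V'.valuation (Polynomial.aeval 𝒮.t N) = 1 := by
  refine ⟨(𝒮.cN hV).map 𝒮.O.subtype, (𝒮.cN_monic hV).map _, ?_, ?_, ?_⟩
  · intro i
    rw [Polynomial.coeff_map]
    exact ((𝒮.cN hV).coeff i).2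
  · rw [← 𝒮.gV_eq_aeval hV]
    exact 𝒮.oH_gV_self hV
  · intro V' hV' hne
    rw [← 𝒮.gV_eq_aeval hV]
    haveI := 𝒮.P.dvr V' hV'.1
    exact (dl_valuation_eq_one_iff V' (𝒮.gV_ne_zero hV)).mpr (𝒮.oH_gV_other hV hV' hne)

end Fermat.Agent.Delta
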