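/-
DELTA / NODE-ABS (helper8), smooth points, part 4: **the exports at a smooth point**
(helper3's (CONS)).

`𝒮 : DlSmooth L F`.
* `dlns_strip`      : `p ∣ ord_V z` for all horizontal `V` ⇒ `z = H ^ p · z₁`, `z₁` without horizontal
  part;
* `dlns_slope_dvd`  : then `p ∣ slope z`   (**(CONS)**: the reduction of `z / ϖ ^ n` to the component
  has order divisible by `p` at the point);
* `dlns_unit_rep`   : if moreover `p ∣ ord_W z` then `z = h ^ p · u`, `u ∈ A^×`;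
* literal forms `dlns_unit_lit`, `dlns_slope_dvd_lit`, `dlns_unit_rep_lit`, `dlns_slope_exists`.
-/
import Fermat.Agent.Lib.Delta.Node.Smooth.Coord

set_option autoImplicit false
set_option linter.style.haveILetI false
set_option linter.unusedSectionVars false
set_option linter.unusedVariables false

namespace Fermat.Agent.Delta

open Fermat.Agent.T4

variable {L F : Type*} [Field L] [Field F] [Algebra L F]

namespace DlSmooth

variable (𝒮 : DlSmooth L F)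

open Classical in
/-- the coordinate function of `V`, total version (`1` if `V` is not horizontal) -/
noncomputable def gV' (V : ValuationSubring F) : F :=
  if hV : V ∈ 𝒮.hor then 𝒮.gV hV else 1

theorem gV'_ne_zero (V : ValuationSubring F) : 𝒮.gV' V ≠ 0 := by
  unfold gV'
  split_ifs with hV
  · exact 𝒮.gV_ne_zero hV
  · exact one_ne_zero

open Classical in
theorem oH_gV' (V : ValuationSubring F) {V' : ValuationSubring F} (hV' : V' ∈ 𝒮.hor) :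
    𝒮.oH V' hV' (𝒮.gV' V) = if V = V' then 1 else 0 := by
  haveI := 𝒮.P.dvr V' hV'.1
  unfold gV'
  by_cases hV : V ∈ 𝒮.hor
  · rw [dif_pos hV]
    by_cases h : V = V'
    · subst h
      rw [if_pos rfl]
      exact 𝒮.oH_gV_self hV
    · rw [if_neg h]
      exact 𝒮.oH_gV_other hV hV' (Ne.symm h)
  · rw [dif_neg hV]
    have h : V ≠ V' := by
      rintro rfl
      exact hV hV'
    rw [if_neg h]
    exact dlOrd_one V'

/-- the horizontal order, total version -/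
noncomputable def oHt (V : ValuationSubring F) (z : F) : ℤ := by
  classical exact if hV : V ∈ 𝒮.hor then 𝒮.oH V hV z else 0

theorem oHt_eq {V : ValuationSubring F} (hV : V ∈ 𝒮.hor) (z : F) : 𝒮.oHt V z = 𝒮.oH V hV z := by
  unfold oHt
  rw [dif_pos hV]

theorem finite_supp {z : F} (hz : z ≠ 0) : {V ∈ 𝒮.P.vals | z ∉ V ∨ z⁻¹ ∉ V}.Finite := by
  have h1 := 𝒮.P.finite_char z hz
  have h2 := 𝒮.P.finite_char z⁻¹ (inv_ne_zero hz)
  refine (h1.union h2).subset ?_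
  rintro V ⟨hV, h | h⟩
  · exact Or.inl ⟨hV, h⟩
  · exact Or.inr ⟨hV, h⟩

open Classical in
/-- the (finite) support of a function among the valuation rings of the presentation -/
noncomputable def supp (z : F) : Finset (ValuationSubring F) :=
  if hz : z ≠ 0 then (𝒮.finite_supp hz).toFinset else ∅

theorem oH_eq_zero_of_not_mem_supp {z : F} (hz : z ≠ 0) {V : ValuationSubring F}
    (hV : V ∈ 𝒮.hor) (h : V ∉ 𝒮.supp z) : 𝒮.oH V hV z = 0 := by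
  haveI := 𝒮.P.dvr V hV.1
  unfold supp at h
  rw [dif_pos hz, Set.Finite.mem_toFinset] at h
  have h1 : z ∈ V := by
    by_contra hc
    exact h ⟨hV.1, Or.inl hc⟩
  have h2 : z⁻¹ ∈ V := by
    by_contra hc
    exact h ⟨hV.1, Or.inr hc⟩
  have h3 := dlOrd_nonneg_of_mem V h1
  have h4 := dlOrd_nonneg_of_mem V h2
  rw [dlOrd_inv] at h4
  show dlOrd V z = 0
  omega

/-- the product of the `g_V ^ e V` over the support of `z` -/
noncomputable def hprod (z : F) (e : ValuationSubring F → ℤ) : F :=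
  ∏ V ∈ 𝒮.supp z, 𝒮.gV' V ^ e V

theorem hprod_ne_zero (z : F) (e : ValuationSubring F → ℤ) : 𝒮.hprod z e ≠ 0 :=
  Finset.prod_ne_zero_iff.mpr fun V _ => zpow_ne_zero _ (𝒮.gV'_ne_zero V)

open Classical in
theorem oH_hprod (z : F) (e : ValuationSubring F → ℤ) {V' : ValuationSubring F}
    (hV' : V' ∈ 𝒮.hor) :
    𝒮.oH V' hV' (𝒮.hprod z e) = if V' ∈ 𝒮.supp z then e V' else 0 := by
  haveI := 𝒮.P.dvr V' hV'.1
  unfold hprod
  show dlOrd V' _ = _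
  rw [dlOrd_prod V' _ _ (fun V _ => zpow_ne_zero _ (𝒮.gV'_ne_zero V))]
  have h1 : ∀ V ∈ 𝒮.supp z, dlOrd V' (𝒮.gV' V ^ e V) = if V = V' then e V' else 0 := by
    intro V _
    rw [dlOrd_zpow]
    have := 𝒮.oH_gV' V hV'
    change dlOrd V' (𝒮.gV' V) = _ at this
    rw [this]
    by_cases h : V = V'
    · subst h; simp
    · simp [h]
  rw [Finset.sum_congr rfl h1, Finset.sum_ite_eq' (𝒮.supp z) V' (fun _ => e V')]

end DlSmooth

section Cll

variable (𝒮 : DlSmooth L F)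

/-- **stripping the horizontal part** at a smooth point -/
theorem dlns_strip (p : ℤ) {z : F} (hz : z ≠ 0)
    (hp : ∀ (V : ValuationSubring F) (hV : V ∈ 𝒮.hor), p ∣ 𝒮.oH V hV z) :
    ∃ H : F, H ≠ 0 ∧ ∀ (V : ValuationSubring F) (hV : V ∈ 𝒮.hor),
      𝒮.oH V hV z = p * 𝒮.oH V hV H := by
  classical
  by_cases hp0 : p = 0
  · subst hp0
    refine ⟨1, one_ne_zero, fun V hV => ?_⟩
    have := hp V hV
    rw [zero_dvd_iff] at this
    rw [this]; ring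
  refine ⟨𝒮.hprod z (fun V => 𝒮.oHt V z / p), 𝒮.hprod_ne_zero _ _, fun V hV => ?_⟩
  rw [𝒮.oH_hprod z _ hV]
  by_cases h : V ∈ 𝒮.supp z
  · rw [if_pos h, 𝒮.oHt_eq hV]
    exact (Int.mul_ediv_cancel' (hp V hV)).symm
  · rw [if_neg h, 𝒮.oH_eq_zero_of_not_mem_supp hz hV h]; ring

/-- **(CONS)**: if all horizontal orders of `z` are divisible by `p`, so is the slope of `z` at the
smooth point -/
theorem dlns_slope_dvd (p : ℤ) {z : F} (hz : z ≠ 0)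
    (hp : ∀ (V : ValuationSubring F) (hV : V ∈ 𝒮.hor), p ∣ 𝒮.oH V hV z) :
    p ∣ 𝒮.slope z := by
  obtain ⟨H, hH0, hH⟩ := dlns_strip 𝒮 p hz hp
  have hHp : H ^ p ≠ 0 := zpow_ne_zero _ hH0
  have h1 : ∀ (V : ValuationSubring F) (hV : V ∈ 𝒮.hor), 𝒮.oH V hV (z / H ^ p) = 0 := by
    intro V hV
    rw [dlns_oH_div 𝒮 hV hz hHp, dlns_oH_zpow, hH V hV]; ring
  have h2 := (dlns_slope_form 𝒮 (div_ne_zero hz hHp) h1).2
  rw [𝒮.slope_div hz hHp, 𝒮.slope_zpow] at h2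
  exact ⟨𝒮.slope H, by linarith⟩

/-- **the local `p`-th power representation at a smooth point** -/
theorem dlns_unit_rep (p : ℕ) {z : F} (hz : z ≠ 0)
    (hp : ∀ (V : ValuationSubring F) (hV : V ∈ 𝒮.hor), (p : ℤ) ∣ 𝒮.oH V hV z)
    (hW : (p : ℤ) ∣ 𝒮.oW z) : ∃ h u : F, h ≠ 0 ∧ 𝒮.IsU u ∧ z = h ^ p * u := by
  obtain ⟨H, hH0, hH⟩ := dlns_strip 𝒮 p hz hp
  have hHp : H ^ p ≠ 0 := pow_ne_zero _ hH0
  have hπ := dlns_pi_ne_zero 𝒮
  obtain ⟨a, ha⟩ : (p : ℤ) ∣ 𝒮.oW (z / H ^ p) := by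
    rw [dlns_oW_div 𝒮 hz hHp, dlns_oW_pow]
    exact dvd_sub hW (dvd_mul_right _ _)
  have hz1 : z / H ^ p ≠ 0 := div_ne_zero hz hHp
  have h1 : ∀ (V : ValuationSubring F) (hV : V ∈ 𝒮.hor), 𝒮.oH V hV (z / H ^ p) = 0 := by
    intro V hV
    rw [dlns_oH_div 𝒮 hV hz hHp, dlns_oH_pow, hH V hV]; ring
  have hU := (dlns_slope_form 𝒮 hz1 h1).1
  rw [ha] at hU
  refine ⟨H * 𝒮.pi ^ a, z / H ^ p / 𝒮.pi ^ ((p : ℤ) * a), mul_ne_zero hH0 (zpow_ne_zero _ hπ),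
    hU, ?_⟩
  rw [mul_pow, ← zpow_natCast (𝒮.pi ^ a) p, ← zpow_mul, mul_comm a (p : ℤ)]
  have := zpow_ne_zero ((p : ℤ) * a) hπ
  field_simp

/-! ### literal forms -/

/-- "no horizontal part" in terms of valuations -/
theorem dlns_noHor_iff {z : F} (hz : z ≠ 0) :
    (∀ V ∈ 𝒮.hor, V.valuation z = 1) ↔
      ∀ (V : ValuationSubring F) (hV : V ∈ 𝒮.hor), 𝒮.oH V hV z = 0 := by
  constructor
  · intro h V hV
    haveI := 𝒮.P.dvr V hV.1
    exact (dl_valuation_eq_one_iff V hz).mp (h V hV)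
  · intro h V hV
    haveI := 𝒮.P.dvr V hV.1
    exact (dl_valuation_eq_one_iff V hz).mpr (h V hV)

/-- congruence in terms of the valuation -/
theorem dlns_congW_iff_val {f g : F} : 𝒮.CongW f g ↔ 𝒮.W.valuation (f - g) < 1 := by
  constructor
  · rintro (h | h)
    · rw [h, sub_self, map_zero]; exact zero_lt_one
    · have h0 : f - g ≠ 0 := dln_ne_zero_of_ord_ne 𝒮.W (by
        have : 0 < dlOrd 𝒮.W (f - g) := h
        omega)
      exact (dl_valuation_lt_one_iff 𝒮.W h0).mpr h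
  · intro h
    by_cases h0 : f - g = 0
    · exact Or.inl (sub_eq_zero.mp h0)
    · exact Or.inr ((dl_valuation_lt_one_iff 𝒮.W h0).mp h)

/-- the defining property of the slope at a smooth point -/
theorem dlns_slope_exists {z : F} (hz : z ≠ 0) :
    ∃ u : F, u ∈ 𝒮.A ∧ u⁻¹ ∈ 𝒮.A ∧ u ≠ 0 ∧
      𝒮.W.valuation (z / (algebraMap L F 𝒮.ϖ ^ (dlOrd 𝒮.W z) * 𝒮.t ^ (𝒮.slope z)) - u) < 1 := by
  obtain ⟨u, hu, h⟩ := 𝒮.slope_spec hz
  refine ⟨u, hu.1, hu.2.1, hu.2.2, ?_⟩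
  rw [← dlns_congW_iff_val]
  have h1 := h.mul_left 𝒮 (a := 𝒮.t ^ (-𝒮.slope z))
    (Or.inr (by rw [dlns_oW_zpow, 𝒮.oW_t]; simp))
  have e1 : 𝒮.t ^ (-𝒮.slope z) * 𝒮.nrm z =
      z / (𝒮.pi ^ (𝒮.oW z) * 𝒮.t ^ (𝒮.slope z)) := by
    unfold DlSmooth.nrm
    rw [zpow_neg]
    have := zpow_ne_zero (𝒮.slope z) 𝒮.t_ne_zero
    have := zpow_ne_zero (𝒮.oW z) (dlns_pi_ne_zero 𝒮)
    field_simp
  have e2 : 𝒮.t ^ (-𝒮.slope z) * (𝒮.t ^ (𝒮.slope z) * u) = u := by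
    rw [← mul_assoc, ← zpow_add₀ 𝒮.t_ne_zero]; simp
  rw [e1, e2] at h1
  exact h1

/-- **the unit lemma at a smooth point** -/
theorem dlns_unit_lit {z : F} (hz : z ≠ 0) (hH : ∀ V ∈ 𝒮.hor, V.valuation z = 1)
    (hW : dlOrd 𝒮.W z = 0) : z ∈ 𝒮.A ∧ z⁻¹ ∈ 𝒮.A := by
  have h := dlns_isU_of 𝒮 hz hW ((dlns_noHor_iff 𝒮 hz).mp hH)
  exact ⟨h.1, h.2.1⟩

/-- **(CONS)**, literal form -/
theorem dlns_slope_dvd_lit (p : ℕ) {z : F} (hz : z ≠ 0)
    (hp : ∀ (V : ValuationSubring F) (hV : V ∈ 𝒮.hor),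
      (p : ℤ) ∣ (haveI := 𝒮.P.dvr V hV.1; dlOrd V z)) : (p : ℤ) ∣ 𝒮.slope z :=
  dlns_slope_dvd 𝒮 p hz hp

/-- **the local `p`-th power representation at a smooth point**, literal form -/
theorem dlns_unit_rep_lit (p : ℕ) {z : F} (hz : z ≠ 0)
    (hp : ∀ (V : ValuationSubring F) (hV : V ∈ 𝒮.hor),
      (p : ℤ) ∣ (haveI := 𝒮.P.dvr V hV.1; dlOrd V z))
    (hW : (p : ℤ) ∣ dlOrd 𝒮.W z) :
    ∃ h z₀ : F, h ≠ 0 ∧ z₀ ∈ 𝒮.A ∧ z₀⁻¹ ∈ 𝒮.A ∧ z = h ^ p * z₀ := by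
  obtain ⟨h, u, hh, hu, e⟩ := dlns_unit_rep 𝒮 p hz hp hW
  exact ⟨h, u, hh, hu.1, hu.2.1, e⟩

end Cll

end Fermat.Agent.Delta
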